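/-
Program C (S55), package C8, export (B4): the ASSEMBLY of helper29's `LiftStatement p`
(`H29/C8Cls.lean`) from the leaf `Prop`s of that file.

`K/k` Galois of degree `p ^ a * m'` (`p ∤ m'`), `E/k` cyclic of degree `p ^ a`, `L = K·E`,
`μ_p ⊆ k`: every `p`-primary class of `H²(Gal(K/k), C_K)` inflates into the image of
`H²(Gal(L/k), J_L)`.

Proof: `H29.lift_core_p` with `B₁ = H²(Gal(K/k), C_K)`, `B₂ = H²(Gal(E/k), C_E)`,
`A = H²(Gal(L/k), C_L)`, `X = H²(Gal(L/k), J_L)`, `R = H²(Gal(K/K'), C_K)`, `K'` the fixed field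
of a Sylow `p`-subgroup of `Gal(K/k)`.
-/
import Fermat.Agent.S55.H29.C8Cls

set_option autoImplicit false
set_option linter.unusedSectionVars false

open CategoryTheory groupCohomology Rep

noncomputable section

namespace Fermat.Agent.S55.H18

open Fermat.Agent.S55.H88 Fermat.Agent.S55.H66 Fermat.Agent.S55.H29

attribute [local instance] factOfPrimes

/-! ### Naturality squares in degree 2 -/

section Squares

variable (k K L : Type) [Field k] [Field K] [Field L] [Algebra k K] [Algebra k L] [Algebra K L]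
  [IsScalarTower k K L] [Normal k K] [NumberField K] [NumberField L]

/-- Inflation commutes with the projection `J → C`. -/
theorem infC_proj (y : groupCohomology (ideleRep k K) 2) :
    (groupCohomology.map (AlgEquiv.restrictNormalHom (F := k) (K₁ := L) K)
        (classInfl k K L) 2).hom (mapH2 (ideleClassProj k K) y)
      = mapH2 (ideleClassProj k L)
          ((groupCohomology.map (AlgEquiv.restrictNormalHom (F := k) (K₁ := L) K)
            (ideleInfl k K L) 2).hom y) := by
  have e1 : groupCohomology.map (MonoidHom.id (K ≃ₐ[k] K)) (ideleClassProj k K) 2 ≫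
        groupCohomology.map (AlgEquiv.restrictNormalHom (F := k) (K₁ := L) K)
          (classInfl k K L) 2
      = groupCohomology.map (AlgEquiv.restrictNormalHom (F := k) (K₁ := L) K)
          (ideleInfl k K L) 2 ≫
        groupCohomology.map (MonoidHom.id (L ≃ₐ[k] L)) (ideleClassProj k L) 2 := by
    rw [← groupCohomology.map_comp, ← groupCohomology.map_comp]
    exact groupCohomology.map_congr rfl (LinearMap.ext fun x => rfl) 2
  exact congrArg (fun f => f.hom y) e1

end Squares

section Squares2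

variable (k K L : Type) [Field k] [Field K] [Field L] [Algebra k K] [Algebra K L] [Algebra k L]
  [IsScalarTower k K L] [NumberField L]

/-- Restriction commutes with the projection `J → C`. -/
theorem subC_proj (z : groupCohomology (ideleRep k L) 2) :
    (groupCohomology.map (subGal k K L) (classSub k K L) 2).hom (mapH2 (ideleClassProj k L) z)
      = mapH2 (ideleClassProj K L)
          ((groupCohomology.map (subGal k K L) (ideleSub k K L) 2).hom z) := by
  have e1 : groupCohomology.map (A := ideleRep k L) (B := ideleClassRep k L)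
          (MonoidHom.id (L ≃ₐ[k] L)) (ideleClassProj k L) 2 ≫
        groupCohomology.map (subGal k K L) (classSub k K L) 2
      = groupCohomology.map (subGal k K L) (ideleSub k K L) 2 ≫
        groupCohomology.map (A := ideleRep K L) (B := ideleClassRep K L)
          (MonoidHom.id (L ≃ₐ[K] L)) (ideleClassProj K L) 2 := by
    rw [← groupCohomology.map_comp, ← groupCohomology.map_comp]
    exact groupCohomology.map_congr rfl (LinearMap.ext fun x => rfl) 2
  exact congrArg (fun f => f.hom z) e1

/-- The composite `H²(Lˣ) → H²(J_L) → H²(C_L)` is zero. -/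
theorem proj_diag (α : groupCohomology (Rep.ofAlgebraAutOnUnits k L) 2) :
    mapH2 (ideleClassProj k L) (mapH2 (ideleDiag k L) α) = 0 :=
  congrArg (fun f => f.hom α) (mapShortComplex₂ (ideleShortComplex k L) 2).zero

/-- Exactness of `H²(Lˣ) → H²(J_L) → H²(C_L)`. -/
theorem exists_diag_of_proj (z : groupCohomology (ideleRep k L) 2)
    (hz : mapH2 (ideleClassProj k L) z = 0) :
    ∃ α : groupCohomology (Rep.ofAlgebraAutOnUnits k L) 2, mapH2 (ideleDiag k L) α = z :=
  exists_mapH2_eq (ideleShortComplex_shortExact k L) z hz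

end Squares2

/-! ### Auxiliary facts -/

/-- An integer killing an idele class kills the sum of its local invariants. -/
theorem sum_jinv_smul (hFin : JFinStatement) (k K : Type) [Field k] [NumberField k] [Field K]
    [NumberField K] [Algebra k K] [IsGalois k K] (y : groupCohomology (ideleRep k K) 2) (n : ℕ)
    (hn : n • y = 0) : n • ∑ᶠ v : FinPlace k, jinv k K v y = 0 := by
  rw [smul_finsum' n (hFin k K y)]
  refine finsum_eq_zero_of_forall_eq_zero fun v => ?_
  rw [← map_nsmul, hn, map_zero]

section Galois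

variable (k K E L : Type) [Field k] [Field K] [Field E] [Field L] [Algebra k K] [Algebra k E]
  [Algebra k L] [Algebra K L] [Algebra E L] [IsScalarTower k K L] [IsScalarTower k E L]
  [FiniteDimensional k E] [IsGalois k E] [FiniteDimensional k L] [IsGalois k L]

/-- `Gal(L/K) → Gal(E/k)` is injective when `L = K·E`. -/
theorem subGal_restrict_injective (hKE : fixSubgroup k K L ⊓ fixSubgroup k E L = ⊥) :
    Function.Injective
      ((AlgEquiv.restrictNormalHom (F := k) (K₁ := L) E).comp (subGal k K L)) := by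
  rw [injective_iff_map_eq_one]
  intro σ hσ
  have h1 : subGal k K L σ ∈ fixSubgroup k K L := (galToFix k K L σ).2
  have h2 : subGal k K L σ ∈ fixSubgroup k E L := by
    intro e
    have h3 := AlgEquiv.restrictNormal_commutes (subGal k K L σ) E e
    have h4 : (subGal k K L σ).restrictNormal E = 1 := hσ
    rw [h4] at h3
    exact h3.symm
  have h5 : subGal k K L σ ∈ (⊥ : Subgroup (L ≃ₐ[k] L)) := by
    rw [← hKE]
    exact ⟨h1, h2⟩
  rw [Subgroup.mem_bot] at h5
  refine AlgEquiv.ext fun x => ?_
  have h6 := congrArg (fun τ : L ≃ₐ[k] L => τ x) h5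
  exact h6

/-- `L/K` is cyclic of `p`-power degree when `L = K·E` with `E/k` cyclic of degree `p ^ a`. -/
theorem cyclic_top (p : ℕ) (hp : p.Prime) [IsCyclic (E ≃ₐ[k] E)] (a : ℕ)
    (hE : Module.finrank k E = p ^ a)
    (hKE : fixSubgroup k K L ⊓ fixSubgroup k E L = ⊥) :
    IsCyclic (L ≃ₐ[K] L) ∧ ∃ n : ℕ, Nat.card (L ≃ₐ[K] L) = p ^ n := by
  have hinj := subGal_restrict_injective k K E L hKE
  refine ⟨isCyclic_of_injective _ hinj, ?_⟩
  have h1 : Nat.card (L ≃ₐ[K] L) ∣ Nat.card (E ≃ₐ[k] E) := Subgroup.card_dvd_of_injective _ hinj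
  rw [IsGalois.card_aut_eq_finrank k E, hE] at h1
  obtain ⟨n, -, hn⟩ := (Nat.dvd_prime_pow hp).1 h1
  exact ⟨n, hn⟩

end Galois

/-- The fixed field of a Sylow `p`-subgroup. -/
theorem exists_sylow_field (p : ℕ) (hp : p.Prime) (k K : Type) [Field k] [Field K] [Algebra k K]
    [FiniteDimensional k K] [IsGalois k K] (a m' : ℕ) (hm' : ¬ p ∣ m')
    (hK : Module.finrank k K = p ^ a * m') :
    ∃ K' : IntermediateField k K, Module.finrank K' K = p ^ a ∧ Module.finrank k K' = m' := by
  classical
  have : Fact p.Prime := ⟨hp⟩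
  obtain ⟨P⟩ : Nonempty (Sylow p (K ≃ₐ[k] K)) := inferInstance
  have hm0 : m' ≠ 0 := by
    rintro rfl
    exact hm' (dvd_zero p)
  have hcard : Nat.card (P : Subgroup (K ≃ₐ[k] K)) = p ^ a := by
    rw [Sylow.card_eq_multiplicity, IsGalois.card_aut_eq_finrank, hK,
      Nat.factorization_mul (pow_ne_zero a hp.ne_zero) hm0, Finsupp.add_apply,
      Nat.Prime.factorization_pow hp, Finsupp.single_eq_same,
      Nat.factorization_eq_zero_of_not_dvd hm', add_zero]
  refine ⟨IntermediateField.fixedField (P : Subgroup (K ≃ₐ[k] K)), ?_, ?_⟩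
  · rw [IntermediateField.finrank_fixedField_eq_card, ← hcard]
  · have h1 := Module.finrank_mul_finrank k
      (IntermediateField.fixedField (P : Subgroup (K ≃ₐ[k] K))) K
    rw [IntermediateField.finrank_fixedField_eq_card, hK] at h1
    have h2 : Nat.card (P : Subgroup (K ≃ₐ[k] K)) = p ^ a := hcard
    rw [h2, mul_comm] at h1
    exact Nat.eq_of_mul_eq_mul_left (pow_pos hp.pos a) h1

/-! ### The assembly -/

/-- **(LIFT)** from the leaves of `H29/C8Cls.lean`. -/
theorem liftStatement_of {p : ℕ} (hFin : JFinStatement) (hInf : JInfStatement)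
    (hRes : JResStatement) (hSum : SumLocDegStatement) (hIR : ClassInfResStatement)
    (hSyl : ClassSylowStatement) (hH1 : ClassH1Statement p) (hKer : CycKerStatement p)
    (hCyc : ClassCycStatement p) (hPB : ClassPBoundStatement p)
    (hRec : RecStatement NFLayer p) : LiftStatement p := by
  intro hp hp2 k K E L _ _ _ _ _ _ _ _ _ _ _ _ _ _ _ _ _ _ _ hζ a m' hm' hK hE hKE c hc
  obtain ⟨ζ, hζ'⟩ := hζ
  -- the layer `L/K`
  have hGalLK : IsGalois K L := IsGalois.tower_top_of_isGalois k K L
  have hζK : ∃ ζ : K, IsPrimitiveRoot ζ p :=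
    ⟨algebraMap k K ζ, hζ'.map_of_injective (algebraMap k K).injective⟩
  obtain ⟨hcycLK, n₁, hn₁⟩ := cyclic_top k K E L p hp a hE hKE
  have hn₁' : Module.finrank K L = p ^ n₁ := by
    rw [← IsGalois.card_aut_eq_finrank K L]
    exact hn₁
  have hH1LK : Limits.IsZero (groupCohomology (ideleClassRep K L) 1) :=
    hH1 hp hp2 K L hζK ⟨n₁, hn₁'⟩
  obtain ⟨hinj₁, hex₁⟩ := hIR k K L hH1LK
  -- the cyclic layer `E/k`
  obtain ⟨hsurjE, hcardE⟩ := hCyc hp hp2 k E ⟨ζ, hζ'⟩ a hE
  have hpy : ∀ y : groupCohomology (ideleRep k E) 2, p ^ a • y = 0 := by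
    intro y
    have h := Fermat.Agent.S55.H80.card_smul_eq_zero (ideleRep k E) 2 (Or.inr rfl) y
    rw [IsGalois.card_aut_eq_finrank k E, hE] at h
    exact h
  -- the Sylow field
  obtain ⟨K', hK'top, hK'bot⟩ := exists_sylow_field p hp k K a m' hm' hK
  have hζK' : ∃ ζ : K', IsPrimitiveRoot ζ p :=
    ⟨algebraMap k K' ζ, hζ'.map_of_injective (algebraMap k K').injective⟩
  have hR : Nat.card (groupCohomology (ideleClassRep K' K) 2) ∣ p ^ a :=
    hPB hp hp2 a K' K hζK' hK'top
  -- the maps
  let inf₁ : groupCohomology (ideleClassRep k K) 2 →+ groupCohomology (ideleClassRep k L) 2 :=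
    (groupCohomology.map (AlgEquiv.restrictNormalHom (F := k) (K₁ := L) K)
      (classInfl k K L) 2).hom.toAddMonoidHom
  let inf₂ : groupCohomology (ideleClassRep k E) 2 →+ groupCohomology (ideleClassRep k L) 2 :=
    (groupCohomology.map (AlgEquiv.restrictNormalHom (F := k) (K₁ := L) E)
      (classInfl k E L) 2).hom.toAddMonoidHom
  let ρ : groupCohomology (ideleClassRep k K) 2 →+ groupCohomology (ideleClassRep K' K) 2 :=
    (groupCohomology.map (subGal k K' K) (classSub k K' K) 2).hom.toAddMonoidHom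
  -- `inf₂ ∘ proj = proj ∘ inf`
  have e₂ : ∀ y : groupCohomology (ideleRep k E) 2,
      inf₂ (mapH2 (ideleClassProj k E) y) = mapH2 (ideleClassProj k L)
        ((groupCohomology.map (AlgEquiv.restrictNormalHom (F := k) (K₁ := L) E)
          (ideleInfl k E L) 2).hom y) := fun y => infC_proj k E L y
  have h1 : inf₂.range ≤ (mapH2 (ideleClassProj k L)).range := by
    rintro _ ⟨c₂, rfl⟩
    obtain ⟨y, rfl⟩ := hsurjE c₂
    exact ⟨_, (e₂ y).symm⟩
  have h2 : inf₂.range ≤ inf₁.range := by
    rintro _ ⟨c₂, rfl⟩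
    obtain ⟨y, rfl⟩ := hsurjE c₂
    have hzero : (groupCohomology.map (subGal k K L) (classSub k K L) 2).hom
        (inf₂ (mapH2 (ideleClassProj k E) y)) = 0 := by
      rw [e₂ y, subC_proj k K L]
      have hsum : ∑ᶠ w : FinPlace K, jinv K L w
          ((groupCohomology.map (subGal k K L) (ideleSub k K L) 2).hom
            ((groupCohomology.map (AlgEquiv.restrictNormalHom (F := k) (K₁ := L) E)
              (ideleInfl k E L) 2).hom y)) = 0 := by
        have h3 : ∀ w : FinPlace K, jinv K L w
            ((groupCohomology.map (subGal k K L) (ideleSub k K L) 2).hom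
              ((groupCohomology.map (AlgEquiv.restrictNormalHom (F := k) (K₁ := L) E)
                (ideleInfl k E L) 2).hom y)) = w.locDeg k • jinv k E (w.below k) y := by
          intro w
          rw [hRes k K L _ w, hInf k E L y (w.below k)]
        rw [finsum_congr h3, hSum k K (fun v => jinv k E v y) (hFin k E y)]
        refine sum_jinv_smul hFin k E y _ ?_
        rw [hK, mul_comm, mul_nsmul, hpy]
      obtain ⟨α, hα⟩ := hKer hp hp2 K L hζK ⟨n₁, hn₁'⟩ _ hsum
      rw [← hα, proj_diag]
    obtain ⟨c₁, hc₁⟩ := hex₁ _ hzero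
    exact ⟨c₁, hc₁⟩
  have hinj₂ : Function.Injective inf₂ := by
    rw [injective_iff_map_eq_zero]
    intro c₂ hc₂
    obtain ⟨y, rfl⟩ := hsurjE c₂
    rw [e₂ y] at hc₂
    obtain ⟨α, hα⟩ := exists_diag_of_proj k L _ hc₂
    have hzp : ∃ j : ℕ, p ^ j • mapH2 (ideleDiag k L) α = 0 :=
      ⟨a, by rw [hα, ← map_nsmul, hpy, map_zero]⟩
    obtain ⟨α', hα'p, hα'⟩ := pprimary_adjust (mapH2 (ideleDiag k L)) p hp
      (Nat.card (L ≃ₐ[k] L)) Nat.card_pos
      (fun x => Fermat.Agent.S55.H80.card_smul_eq_zero (Rep.ofAlgebraAutOnUnits k L) 2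
        (Or.inr rfl) x) α hzp
    have hrec : ∑ᶠ v : FinPlace k, (layerOf k L).linv v α' = 0 :=
      hRec (layerOf k L) ⟨k, L, inferInstance, inferInstance, inferInstance, inferInstance,
        inferInstance, inferInstance, rfl⟩ α' hα'p
    have hsum : ∑ᶠ v : FinPlace k, jinv k E v y = 0 := by
      have h3 : ∀ v : FinPlace k, jinv k E v y = (layerOf k L).linv v α' := by
        intro v
        rw [← jinv_ideleDiag k L v α', hα', hα, hInf k E L y v]
      rw [finsum_congr h3]
      exact hrec
    obtain ⟨β, hβ⟩ := hKer hp hp2 k E ⟨ζ, hζ'⟩ ⟨a, hE⟩ y hsum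
    rw [← hβ, proj_diag]
  have hρ : ∀ b : groupCohomology (ideleClassRep k K) 2, (∃ j : ℕ, p ^ j • b = 0) →
      ρ b = 0 → b = 0 := fun b hb h =>
    hSyl k K' K p hp (by rw [hK'bot]; exact hm') b hb h
  exact lift_core_p inf₁ inf₂ (mapH2 (ideleClassProj k L)) ρ p a (Nat.card (K ≃ₐ[k] K)) hp
    Nat.card_pos
    (fun b => Fermat.Agent.S55.H80.card_smul_eq_zero (ideleClassRep k K) 2 (Or.inr rfl) b)
    (fun b _ h => hinj₁ (h.trans (map_zero _).symm)) hinj₂ h1 h2 hcardE hR hρ c hc

end Fermat.Agent.S55.H18
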