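/-
Program C (S55), package C3, leaf L4: the local norm index, in helper66's model.

`leafNormIndex : H66.LeafNormIndex q` — for a cyclic extension `L/F` of embedded local fields,
`(Fˣ : N Lˣ) = [L : F]`.  Direct instantiation of `H18.norm_index_of_cyclic_of_proper`
(`NormIndex.lean`): the normed field structure on `↥L` is the one induced from `PadicAlgCl q`,
it is ultrametric, proper and complete (finite-dimensional over `ℚ_[q]`), Galois automorphisms
are isometries (spectral norm), and the value group is discrete (`H66.leafUnif`).
-/
import Fermat.Agent.S55.H18.NormIndex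
import Fermat.Agent.S55.H66.LocalBridge

set_option autoImplicit false
set_option linter.unusedSectionVars false

noncomputable section

namespace Fermat.Agent.S55.H18

open Fermat.Agent.S55.H66

variable (q : ℕ) [Fact q.Prime]

section Model

variable {q}
variable {F : Type} [Field F] [Algebra ℚ_[q] F] [Algebra F (PadicAlgCl q)]
  [IsScalarTower ℚ_[q] F (PadicAlgCl q)]
variable (L : IntermediateField F (PadicAlgCl q))

/-- Automorphisms of `L/F` are isometries for the norm induced from `PadicAlgCl q`. -/
theorem norm_algEquiv_eq (σ : L ≃ₐ[F] L) (x : L) : ‖σ x‖ = ‖x‖ := by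
  have h1 : ∀ y : L, ‖y‖ = spectralValue (minpoly ℚ_[q] y) := by
    intro y
    have hmin : minpoly ℚ_[q] (y : PadicAlgCl q) = minpoly ℚ_[q] y :=
      minpoly.algebraMap_eq (algebraMap L (PadicAlgCl q)).injective y
    rw [← hmin]
    rfl
  rw [h1, h1]
  exact congrArg spectralValue (minpoly.algEquiv_eq (σ.restrictScalars ℚ_[q]) x)

/-- The induced distance on `↥L` is ultrametric. -/
theorem isUltrametricDist_sub : IsUltrametricDist L :=
  ⟨fun x y z => IsUltrametricDist.dist_triangle_max (x : PadicAlgCl q) y z⟩

/-- `↥L` is a normed space over `ℚ_[q]`. -/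
abbrev normedSpaceSub : NormedSpace ℚ_[q] L :=
  ⟨fun c x => norm_smul_le c (x : PadicAlgCl q)⟩

end Model

/-- **L4**: `(Fˣ : N Lˣ) = [L : F]` for a cyclic extension `L/F` of embedded local fields. -/
theorem leafNormIndex : LeafNormIndex q := by
  intro F _ _ _ _ _ L _ _ hcyc
  have : IsUltrametricDist L := isUltrametricDist_sub L
  let : NormedSpace ℚ_[q] L := normedSpaceSub L
  have : ProperSpace L := FiniteDimensional.proper ℚ_[q] L
  have : CompleteSpace L := FiniteDimensional.complete ℚ_[q] L
  exact norm_index_of_cyclic_of_proper hcyc (norm_algEquiv_eq L) (leafUnif q L)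

end Fermat.Agent.S55.H18
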