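/-
Program C (S55): the LOCAL KUMMER NORM INDEX, in the embedded-local-field model of
`H66/LocalDefs.lean`.

For an embedded local field `F` (e.g. `↥K`, `K : IntermediateField ℚ_[q] (PadicAlgCl q)` finite
over `ℚ_[q]`) containing a primitive `p`-th root of unity (`p` prime) and `g : F` not a `p`-th
power, the norm group of the Kummer algebra `F[X]/(X^p - g)` (`H8.kummerNormGroup p g`) has
index exactly `p` in `Fˣ`; in particular it is a proper subgroup.

Proof: `L = F(β)`, `β ^ p = g` in `PadicAlgCl q`, is cyclic of degree `p` over `F` (Kummer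
theory, Mathlib); `leafNormIndex` gives `(Fˣ : N Lˣ) = p`, and helper83's
`kummerNormGroup_eq_range_norm_of_not_pow` identifies `N Lˣ` with the Kummer norm group.
-/
import Fermat.Agent.S55.H18.LeafNormIndex
import Fermat.Agent.S55.H83.KummerNormH8

set_option autoImplicit false
set_option linter.unusedSectionVars false

noncomputable section

namespace Fermat.Agent.S55.H18

open Polynomial IntermediateField

variable (q : ℕ) [Fact q.Prime]

/-- Kummer theory inside `PadicAlgCl q`: for `g : F` not a `p`-th power and `μ_p ⊆ F`, there is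
a cyclic Galois extension `L/F` of degree `p` inside `PadicAlgCl q` containing a `p`-th root of
`g`. -/
theorem exists_kummer_field (F : Type) [Field F] [Algebra F (PadicAlgCl q)]
    {p : ℕ} (hp : p.Prime) {ζ : F} (hζ : IsPrimitiveRoot ζ p) {g : F}
    (hg : ∀ b : F, b ^ p ≠ g) :
    ∃ (L : IntermediateField F (PadicAlgCl q)) (α : L), α ^ p = algebraMap F L g ∧
      FiniteDimensional F L ∧ Module.finrank F L = p ∧ IsGalois F L ∧
      IsCyclic (L ≃ₐ[F] L) := by
  obtain ⟨β, hβ⟩ : ∃ β : PadicAlgCl q, β ^ p = algebraMap F (PadicAlgCl q) g :=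
    IsAlgClosed.exists_pow_nat_eq _ hp.pos
  have hirr : Irreducible (X ^ p - C g : F[X]) := X_pow_sub_C_irreducible_of_prime hp hg
  have hint : IsIntegral F β := by
    refine ⟨X ^ p - C g, monic_X_pow_sub_C g hp.ne_zero, ?_⟩
    rw [eval₂_sub, eval₂_X_pow, eval₂_C, hβ, sub_self]
  have hfd : FiniteDimensional F F⟮β⟯ := IntermediateField.adjoin.finiteDimensional hint
  have hα : (AdjoinSimple.gen F β) ^ p = algebraMap F F⟮β⟯ g := by
    apply Subtype.ext
    rw [SubmonoidClass.coe_pow, AdjoinSimple.coe_gen, hβ]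
    rfl
  have htop : F⟮(AdjoinSimple.gen F β)⟯ = ⊤ := by
    apply IntermediateField.lift_injective
    rw [IntermediateField.lift_adjoin_simple, IntermediateField.lift_top, AdjoinSimple.coe_gen]
  have hprim : (primitiveRoots p F).Nonempty := ⟨ζ, (mem_primitiveRoots hp.pos).2 hζ⟩
  have hsf : IsSplittingField F F⟮β⟯ (X ^ p - C g) := by
    constructor
    · rw [Polynomial.map_sub, Polynomial.map_pow, Polynomial.map_C, Polynomial.map_X]
      exact X_pow_sub_C_splits_of_isPrimitiveRoot
        (hζ.map_of_injective (algebraMap F F⟮β⟯).injective) hα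
    · rw [eq_top_iff, ← IntermediateField.top_toSubalgebra, ← htop,
        IntermediateField.adjoin_simple_toSubalgebra_of_isAlgebraic
          (IsAlgebraic.of_finite F (AdjoinSimple.gen F β))]
      apply Algebra.adjoin_mono
      rw [Set.singleton_subset_iff, mem_rootSet_of_ne (X_pow_sub_C_ne_zero hp.pos g),
        aeval_def, eval₂_sub, eval₂_X_pow, eval₂_C, hα]
      exact sub_self _
  have : NeZero p := ⟨hp.ne_zero⟩
  exact ⟨F⟮β⟯, AdjoinSimple.gen F β, hα, hfd,
    finrank_of_isSplittingField_X_pow_sub_C hprim hirr F⟮β⟯,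
    isGalois_of_isSplittingField_X_pow_sub_C hprim hirr F⟮β⟯,
    isCyclic_of_isSplittingField_X_pow_sub_C hprim hirr F⟮β⟯⟩

/-- **Local Kummer norm index.**  `F` an embedded local field containing a primitive `p`-th root
of unity, `g : F` not a `p`-th power: the Kummer norm group of `g` has index `p` in `Fˣ`. -/
theorem kummerNormGroup_index (F : Type) [Field F] [Algebra ℚ_[q] F] [Algebra F (PadicAlgCl q)]
    [IsScalarTower ℚ_[q] F (PadicAlgCl q)] [FiniteDimensional ℚ_[q] F]
    {p : ℕ} (hp : p.Prime) {ζ : F} (hζ : IsPrimitiveRoot ζ p) {g : F}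
    (hg : ∀ b : F, b ^ p ≠ g) :
    (Fermat.Agent.S55.H8.kummerNormGroup p g).index = p := by
  obtain ⟨L, α, hα, hfd, hfr, hgal, hcyc⟩ := exists_kummer_field q F hp hζ hg
  rw [Fermat.Agent.S55.H83.kummerNormGroup_eq_range_norm_of_not_pow hp hg α hα hfr,
    leafNormIndex q F L hcyc, hfr]

/-- The Kummer norm group of a non-`p`-th-power is a proper subgroup of `Fˣ`. -/
theorem kummerNormGroup_ne_top (F : Type) [Field F] [Algebra ℚ_[q] F] [Algebra F (PadicAlgCl q)]
    [IsScalarTower ℚ_[q] F (PadicAlgCl q)] [FiniteDimensional ℚ_[q] F]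
    {p : ℕ} (hp : p.Prime) {ζ : F} (hζ : IsPrimitiveRoot ζ p) {g : F}
    (hg : ∀ b : F, b ^ p ≠ g) :
    Fermat.Agent.S55.H8.kummerNormGroup p g ≠ ⊤ := by
  intro h
  have h1 := kummerNormGroup_index q F hp hζ hg
  rw [h, Subgroup.index_top] at h1
  exact hp.one_lt.ne h1

/-- The same for a finite intermediate field of `PadicAlgCl q / ℚ_[q]` (helper88's model). -/
theorem kummerNormGroup_index_sub (K : IntermediateField ℚ_[q] (PadicAlgCl q))
    [FiniteDimensional ℚ_[q] K] {p : ℕ} (hp : p.Prime) {ζ : K} (hζ : IsPrimitiveRoot ζ p)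
    {g : K} (hg : ∀ b : K, b ^ p ≠ g) :
    (Fermat.Agent.S55.H8.kummerNormGroup p g).index = p :=
  kummerNormGroup_index q K hp hζ hg

theorem kummerNormGroup_ne_top_sub (K : IntermediateField ℚ_[q] (PadicAlgCl q))
    [FiniteDimensional ℚ_[q] K] {p : ℕ} (hp : p.Prime) {ζ : K} (hζ : IsPrimitiveRoot ζ p)
    {g : K} (hg : ∀ b : K, b ^ p ≠ g) :
    Fermat.Agent.S55.H8.kummerNormGroup p g ≠ ⊤ :=
  kummerNormGroup_ne_top q K hp hζ hg

end Fermat.Agent.S55.H18
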