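/-
Program C (S55), package C6 (first inequality), sub-leaf (CL-NONSPLIT) of
`H50/FirstIneqSpec2.lean`: `classNonsplitStatement : H50.ClassNonsplitStatement`.

LOCAL CORE (`exists_div_pow_unit`): `F` an embedded local field of residue characteristic `q`,
`p ≠ q` prime, `μ_p ⊆ F`, `g` a unit of `F` which is not a `p`-th power.  Then `F(g^{1/p})/F` is
unramified of degree `p` (helper53's `leafKummerUnram`), so every norm `x = N(y)` has
`|x| = |y|^p = |z|^p` with `z ∈ F`: the Kummer norm group is contained in `U_F · Fˣᵖ`.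

GLOBAL STEP: for `S` containing a class-number set, the places above `p` and the places where
`g` is not a unit, and `v ∉ S`: `x = u · z^p`, the class number statement gives `c₁ ∈ kˣ` with
`z / c₁ ∈ U_v`, `c₁` a unit outside `S ∪ {v}`; `c := c₁ ^ p` (a local norm everywhere).
-/
import Fermat.Agent.S55.H18.KummerIndex
import Fermat.Agent.S55.H53.KummerUnram
import Fermat.Agent.S55.H50.FirstIneqSpec2
import Fermat.Agent.S55.H83.EmbGlue

set_option autoImplicit false
set_option linter.unusedSectionVars false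

noncomputable section

namespace Fermat.Agent.S55.H18

open Polynomial IntermediateField
open Fermat.Agent.S55.H66 Fermat.Agent.S55.H8 Fermat.Agent.S55.H88

section Local

variable (q : ℕ) [Fact q.Prime]

/-- Kummer theory for a *given* root: `F⟮β⟯`, `β ^ p = g`, is cyclic Galois of degree `p` over
`F` when `g` is not a `p`-th power and `μ_p ⊆ F`. -/
theorem kummer_adjoin (F : Type) [Field F] [Algebra F (PadicAlgCl q)]
    {p : ℕ} (hp : p.Prime) {ζ : F} (hζ : IsPrimitiveRoot ζ p) {g : F}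
    (hg : ∀ b : F, b ^ p ≠ g) {β : PadicAlgCl q}
    (hβ : β ^ p = algebraMap F (PadicAlgCl q) g) :
    ∃ α : F⟮β⟯, α ^ p = algebraMap F F⟮β⟯ g ∧
      FiniteDimensional F F⟮β⟯ ∧ Module.finrank F F⟮β⟯ = p ∧ IsGalois F F⟮β⟯ := by
  have hirr : Irreducible (X ^ p - C g : F[X]) := X_pow_sub_C_irreducible_of_prime hp hg
  have hint : IsIntegral F β := by
    refine ⟨X ^ p - C g, monic_X_pow_sub_C g hp.ne_zero, ?_⟩
    rw [eval₂_sub, eval₂_X_pow, eval₂_C, hβ, sub_self]
  have hfd : FiniteDimensional F F⟮β⟯ := IntermediateField.adjoin.finiteDimensional hint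
  have hα : (AdjoinSimple.gen F β) ^ p = algebraMap F F⟮β⟯ g := by
    apply Subtype.ext
    rw [SubmonoidClass.coe_pow, AdjoinSimple.coe_gen, hβ]
    rfl
  have htop : F⟮(AdjoinSimple.gen F β)⟯ = ⊤ := by
    apply IntermediateField.lift_injective
    rw [IntermediateField.lift_adjoin_simple, IntermediateField.lift_top, AdjoinSimple.coe_gen]
  have hprim : (primitiveRoots p F).Nonempty := ⟨ζ, (mem_primitiveRoots hp.pos).2 hζ⟩
  have hsf : IsSplittingField F F⟮β⟯ (X ^ p - C g) := by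
    constructor
    · rw [Polynomial.map_sub, Polynomial.map_pow, Polynomial.map_C, Polynomial.map_X]
      exact X_pow_sub_C_splits_of_isPrimitiveRoot
        (hζ.map_of_injective (algebraMap F F⟮β⟯).injective) hα
    · rw [eq_top_iff, ← IntermediateField.top_toSubalgebra, ← htop,
        IntermediateField.adjoin_simple_toSubalgebra_of_isAlgebraic
          (IsAlgebraic.of_finite F (AdjoinSimple.gen F β))]
      apply Algebra.adjoin_mono
      rw [Set.singleton_subset_iff, mem_rootSet_of_ne (X_pow_sub_C_ne_zero hp.pos g),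
        aeval_def, eval₂_sub, eval₂_X_pow, eval₂_C, hα]
      exact sub_self _
  exact ⟨AdjoinSimple.gen F β, hα, hfd,
    finrank_of_isSplittingField_X_pow_sub_C hprim hirr F⟮β⟯,
    isGalois_of_isSplittingField_X_pow_sub_C hprim hirr F⟮β⟯⟩

/-- **Local core of (CL-NONSPLIT).**  `F` an embedded local field of residue characteristic
`q`, `p ≠ q` prime, `μ_p ⊆ F`, `g` a unit which is not a `p`-th power: every element of the
Kummer norm group of `g` is a unit times a `p`-th power. -/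
theorem exists_div_pow_unit (F : Type) [Field F] [Algebra ℚ_[q] F] [Algebra F (PadicAlgCl q)]
    [IsScalarTower ℚ_[q] F (PadicAlgCl q)] [FiniteDimensional ℚ_[q] F]
    {p : ℕ} (hp : p.Prime) (hpq : p ≠ q) {ζ : F} (hζ : IsPrimitiveRoot ζ p) {g : F}
    (hg1 : nrm q g = 1) (hg : ∀ b : F, b ^ p ≠ g) (x : Fˣ)
    (hx : x ∈ kummerNormGroup p g) :
    ∃ z : Fˣ, nrm q ((x : F) / (z : F) ^ p) = 1 := by
  obtain ⟨β, hβ⟩ : ∃ β : PadicAlgCl q, β ^ p = algebraMap F (PadicAlgCl q) g :=
    IsAlgClosed.exists_pow_nat_eq _ hp.pos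
  have hunr : IsUnram q F F⟮β⟯ :=
    Fermat.Agent.S55.H53.leafKummerUnram q F p hp hpq g hg1 β hβ
  obtain ⟨α, hα, hfd, hfr, hgal⟩ := kummer_adjoin q F hp hζ hg hβ
  rw [Fermat.Agent.S55.H83.kummerNormGroup_eq_range_norm_of_not_pow hp hg α hα hfr] at hx
  obtain ⟨y, rfl⟩ := hx
  have : IsUltrametricDist F⟮β⟯ := isUltrametricDist_sub F⟮β⟯
  have h1 : nrm q (Algebra.norm F (y : F⟮β⟯)) = nrm q (y : F⟮β⟯) ^ p := by
    have h := norm_algebraMap_norm (K := F) (L := F⟮β⟯) (norm_algEquiv_eq F⟮β⟯) (y : F⟮β⟯)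
    rw [hfr] at h
    exact h
  obtain ⟨y₀, hy₀⟩ := hunr (y : F⟮β⟯)
  have hyne : nrm q (y : F⟮β⟯) ≠ 0 := by
    have h0 : (y : F⟮β⟯) ≠ 0 := y.ne_zero
    simp [nrm, h0]
  have hy₀0 : y₀ ≠ 0 := by
    rintro rfl
    apply hyne
    rw [hy₀]
    simp [nrm]
  refine ⟨Units.mk0 y₀ hy₀0, ?_⟩
  have h2 : nrm q ((Algebra.norm F (y : F⟮β⟯)) / y₀ ^ p)
      = nrm q (Algebra.norm F (y : F⟮β⟯)) / nrm q y₀ ^ p := by
    simp [nrm]
  have h3 : ((Units.map (Algebra.norm F : F⟮β⟯ →* F) y : Fˣ) : F)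
      = Algebra.norm F (y : F⟮β⟯) := rfl
  rw [h3, Units.val_mk0, h2, h1, hy₀]
  exact div_self (pow_ne_zero _ (hy₀ ▸ hyne))

end Local

section Global

universe u

attribute [local instance] Fermat.Agent.S55.H88.factOfPrimes

/-- **C6 sub-leaf (CL-NONSPLIT)**, verbatim. -/
theorem classNonsplitStatement : Fermat.Agent.S55.H50.ClassNonsplitStatement.{u} := by
  classical
  intro k _ _ p hp hp2 ζ hζ g hg
  obtain ⟨T, hT⟩ := Fermat.Agent.S55.H83.classNumberStatement k
  have hfin_g := Fermat.Agent.S55.H83.finiteNonunitStatement k g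
  have hp0 : (p : k) ≠ 0 := Nat.cast_ne_zero.2 hp.ne_zero
  have hfin_p := Fermat.Agent.S55.H83.finiteNonunitStatement k (Units.mk0 (p : k) hp0)
  refine ⟨T ∪ hfin_g.toFinset ∪ hfin_p.toFinset, fun S hS v hvS hpow x hx => ?_⟩
  have hTS : T ⊆ S := fun w hw => hS (by simp [hw])
  have hgU : finLoc k v g ∈ finU k v := by
    by_contra h
    exact hvS (hS (by simp [h]))
  have hpU : finLoc k v (Units.mk0 (p : k) hp0) ∈ finU k v := by
    by_contra h
    exact hvS (hS (by simp [h]))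
  -- the residue characteristic of `v` is not `p`
  have hpq : p ≠ (v.1 : ℕ) := by
    intro h
    have h1 : ‖v.emb ((Units.mk0 (p : k) hp0 : kˣ) : k)‖ = 1 := hpU
    rw [Units.val_mk0, map_natCast, h] at h1
    have h2 : ‖((v.1 : ℕ) : PadicAlgCl (v.1 : ℕ))‖ = ((v.1 : ℕ) : ℝ)⁻¹ := by
      have h3 : ((v.1 : ℕ) : PadicAlgCl (v.1 : ℕ))
          = algebraMap ℚ_[(v.1 : ℕ)] (PadicAlgCl (v.1 : ℕ)) ((v.1 : ℕ) : ℚ_[(v.1 : ℕ)]) := by
        rw [map_natCast]
      rw [h3, norm_algebraMap', Padic.norm_p]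
    rw [h2] at h1
    have h4 : (1 : ℝ) < ((v.1 : ℕ) : ℝ) := by exact_mod_cast v.1.2.one_lt
    have h5 : ((v.1 : ℕ) : ℝ)⁻¹ < 1 := inv_lt_one_of_one_lt₀ h4
    linarith
  -- the local core
  have hnotpow : ∀ b : v.field, b ^ p ≠ ((finLoc k v g : finX k v) : v.field) :=
    fun b hb => hpow ⟨b, hb⟩
  have hfd : FiniteDimensional ℚ_[(v.1 : ℕ)] v.field :=
    finiteDimensional_locField (v.1 : ℕ) v.emb
  have hg1 : nrm (v.1 : ℕ) ((finLoc k v g : finX k v) : v.field) = 1 := hgU
  have hx' : x ∈ kummerNormGroup p ((finLoc k v g : finX k v) : v.field) := hx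
  have hζ' : IsPrimitiveRoot (locEmb (v.1 : ℕ) v.emb ζ) p :=
    hζ.map_of_injective (locEmb (v.1 : ℕ) v.emb).injective
  obtain ⟨z, hz⟩ := exists_div_pow_unit (v.1 : ℕ) v.field hp hpq
    (ζ := locEmb (v.1 : ℕ) v.emb ζ) (g := ((finLoc k v g : finX k v) : v.field))
    hζ' hg1 hnotpow x hx'
  -- the class number statement for the idele `(z at v, 1 elsewhere)`
  let y : ∀ w : FinPlace k, finX k w := Function.update 1 v z
  have hy : y ∈ resProd (finU k) := by
    rw [mem_resProd]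
    refine (Set.finite_singleton v).subset fun w hw => ?_
    by_contra hwv
    apply hw
    have : y w = 1 := Function.update_of_ne hwv _ _
    rw [this]
    exact one_mem _
  obtain ⟨_, ⟨c₁, rfl⟩, j, hj, hyj⟩ := Subgroup.mem_sup.1 (hT S hTS hy)
  rw [mem_JS] at hj
  have hcj : ∀ w, finLoc k w c₁ * j w = y w := fun w => congrFun hyj w
  refine ⟨c₁ ^ p, ?_, ?_, ?_⟩
  · intro v' _
    rw [map_pow]
    exact Fermat.Agent.S55.H83.powLeNormStatement p hp _ _ (finLoc k v' c₁)
  · intro v' hv'S hv'v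
    rw [map_pow]
    apply Subgroup.pow_mem
    have h1 : finLoc k v' c₁ * j v' = 1 := by
      rw [hcj v']
      exact Function.update_of_ne hv'v _ _
    have h2 : finLoc k v' c₁ = (j v')⁻¹ := eq_inv_of_mul_eq_one_left h1
    rw [h2]
    exact Subgroup.inv_mem _ (hj v' (by simpa using hv'S))
  · have h1 : finLoc k v c₁ * j v = z := by
      rw [hcj v]
      exact Function.update_self v z (1 : ∀ w : FinPlace k, finX k w)
    have h2 : x / finLoc k v (c₁ ^ p) = (x / z ^ p) * (j v) ^ p := by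
      rw [map_pow, ← h1, mul_pow, div_mul_eq_div_div, div_mul_cancel]
    rw [h2]
    refine Subgroup.mul_mem _ ?_ (Subgroup.pow_mem _ (hj v (by simpa using hvS)) p)
    show ‖(((x / z ^ p : finX k v) : v.field) : PadicAlgCl (v.1 : ℕ))‖ = 1
    have h3 : (((x / z ^ p : finX k v) : v.field)) = (x : v.field) / (z : v.field) ^ p := by
      rw [Units.val_div_eq_div_val, Units.val_pow_eq_pow_val]
    rw [h3]
    exact hz

end Global

end Fermat.Agent.S55.H18
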