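/-
Program C (S55), package C8 (reciprocity), shared local core: LOCALISATION OF CYCLIC CLASSES in
helper88's layer model (`H88.layerOf`, `H88.linvAt`).

`k ⊆ E` number fields, `E/k` cyclic Galois with generator `σ`, `τ' : E →+* PadicAlgCl q` an
embedding (a place `w` of `E` above a place `v` of `k`), `F = H88.locBase q k τ' = k_v`,
`L = H88.locExt q k τ' = E_w`.

* `locGalToGlobal_injective` : `Gal(E_w/k_v) → Gal(E/k)` is injective;
* `chi σ g` : the character `σ^i ↦ i / n` (`n = orderOf σ`) with values in `ℚ/ℤ`;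
* `exists_locGen` : a generator `τ` of `Gal(E_w/k_v)` mapping to `σ ^ d`, `d · ord τ = ord σ`;
* `locH2At_cycClass` (A) : the localisation of `cycClass σ a` (`a ∈ kˣ`) is `cycClass τ a_v`;
* `exists_norm_of_linvAt_eq_zero` (B) : if the local invariant of `cycClass σ a` vanishes then
  `a` is a norm from `E_w`;
* `linvAt_cycClass_of_unram` (C) : if `E_w/k_v` is unramified with Frobenius `φ`, the local
  invariant of `cycClass σ a` is `ord_v(a) • chi σ (Frob)`, `Frob = locGalToGlobal φ`.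
-/
import Fermat.Agent.S55.H20.LinvIndep
import Fermat.Agent.S55.H29.C8Hasse
import Fermat.Agent.S55.H66.C3Main

set_option autoImplicit false
set_option linter.unusedSectionVars false

noncomputable section

namespace Fermat.Agent.S55.H18

open CategoryTheory groupCohomology
open Fermat.Agent.S55.H66 Fermat.Agent.S55.H88 Fermat.Agent.S55.H29

/-! ### The character `σ^i ↦ i / n` -/

section Chi

variable {G : Type} [Group G]

/-- The character `σ^i ↦ i / orderOf σ` with values in `ℚ/ℤ` (junk outside the powers of `σ`). -/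
def chi (σ g : G) : QZ := (((cycIdx σ g : ℚ) / (orderOf σ : ℚ) : ℚ) : QZ)

theorem cycIdx_pow (σ : G) (hn : 0 < orderOf σ) (i : ℕ) : cycIdx σ (σ ^ i) = i % orderOf σ := by
  classical
  have hex : ∃ j : ℕ, σ ^ j = σ ^ i := ⟨i, rfl⟩
  unfold cycIdx
  rw [dif_pos hex, Nat.find_eq_iff]
  refine ⟨pow_mod_orderOf σ i, fun j hj hji => ?_⟩
  have h1 : j ≡ i [MOD orderOf σ] := pow_eq_pow_iff_modEq.1 hji
  have h2 : j % orderOf σ = i % orderOf σ := h1
  have h3 : j % orderOf σ = j := Nat.mod_eq_of_lt (lt_of_lt_of_le hj (Nat.mod_lt i hn).le)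
  omega

theorem natCast_coe_QZ (m : ℕ) : (((m : ℚ) : ℚ) : QZ) = 0 := by
  have h : ((m : ℚ) : QZ) = m • ((1 : ℚ) : QZ) := by
    rw [← AddCircle.coe_nsmul, nsmul_eq_mul, mul_one]
  rw [h, AddCircle.coe_period, smul_zero]

theorem chi_pow (σ : G) (hn : 0 < orderOf σ) (i : ℕ) :
    chi σ (σ ^ i) = (((i : ℚ) / (orderOf σ : ℚ) : ℚ) : QZ) := by
  unfold chi
  rw [cycIdx_pow σ hn i]
  have hn0 : (orderOf σ : ℚ) ≠ 0 := by exact_mod_cast hn.ne'
  have h1 : (i : ℚ) / (orderOf σ : ℚ)
      = ((i % orderOf σ : ℕ) : ℚ) / (orderOf σ : ℚ) + ((i / orderOf σ : ℕ) : ℚ) := by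
    have h2 : (i : ℚ) = ((orderOf σ * (i / orderOf σ) + i % orderOf σ : ℕ) : ℚ) := by
      rw [Nat.div_add_mod]
    rw [h2]
    push_cast
    field_simp
    ring
  rw [h1, AddCircle.coe_add, natCast_coe_QZ, add_zero]

end Chi

/-! ### The decomposition group -/

section Local

variable {q : ℕ} [Fact q.Prime]

section Inj

variable (k : Type) {E : Type} [Field k] [Field E] [Algebra k E] [Normal k E]
  (τ' : E →+* PadicAlgCl q)

/-- `Gal(E_w/k_v) → Gal(E/k)` is injective. -/
theorem locGalToGlobal_injective : Function.Injective (locGalToGlobal q k τ') := by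
  intro α β h
  have hE : ∀ x : E, α (locExtEmb q k τ' x) = β (locExtEmb q k τ' x) := by
    intro x
    rw [locGalToGlobal_spec, locGalToGlobal_spec, h]
  have key : ∀ (z : PadicAlgCl q) (hz : z ∈ locField q τ'),
      α (⟨z, hz⟩ : locExt q k τ') = β (⟨z, hz⟩ : locExt q k τ') := by
    intro z hz
    induction hz using IntermediateField.adjoin_induction with
    | mem x hx =>
      obtain ⟨e, rfl⟩ := hx
      exact hE e
    | algebraMap c =>
      have h1 : (⟨algebraMap ℚ_[q] (PadicAlgCl q) c, IntermediateField.algebraMap_mem _ c⟩ :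
          locExt q k τ') = algebraMap (locBase q k τ') (locExt q k τ')
            (algebraMap ℚ_[q] (locBase q k τ') c) := rfl
      rw [h1, AlgEquiv.commutes, AlgEquiv.commutes]
    | add x y hx hy ihx ihy =>
      have h1 : (⟨x + y, add_mem hx hy⟩ : locExt q k τ')
          = (⟨x, hx⟩ : locExt q k τ') + (⟨y, hy⟩ : locExt q k τ') := rfl
      rw [h1, map_add, map_add, ihx, ihy]
    | inv x hx ihx =>
      have h1 : (⟨x⁻¹, inv_mem hx⟩ : locExt q k τ') = (⟨x, hx⟩ : locExt q k τ')⁻¹ := rfl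
      rw [h1, map_inv₀, map_inv₀, ihx]
    | mul x y hx hy ihx ihy =>
      have h1 : (⟨x * y, mul_mem hx hy⟩ : locExt q k τ')
          = (⟨x, hx⟩ : locExt q k τ') * (⟨y, hy⟩ : locExt q k τ') := rfl
      rw [h1, map_mul, map_mul, ihx, ihy]
  exact AlgEquiv.ext fun z => key z.1 z.2

/-- The image in `k_vˣ` of an element of `kˣ`. -/
def locUnit (a : kˣ) : (locBase q k τ')ˣ :=
  Units.map ((locEmb q (τ'.comp (algebraMap k E)) : k →+* locBase q k τ') : k →* locBase q k τ') a

theorem coe_locUnit (a : kˣ) :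
    (((locUnit k τ' a : (locBase q k τ')ˣ) : locBase q k τ') : PadicAlgCl q)
      = τ' (algebraMap k E (a : k)) := rfl

/-- The localisation of an element of the base field. -/
theorem globalToLocUnits_unitOfBase (a : kˣ) :
    (globalToLocUnits q k τ').hom (unitOfBase k E a)
      = baseUnit (locExt q k τ') (locUnit k τ' a) := by
  apply Fermat.Agent.S55.H24.toUnit_injective
  apply Units.ext
  apply Subtype.ext
  rfl

theorem unitOfBase_invariant (a : kˣ) (g : E ≃ₐ[k] E) :
    (Rep.ofAlgebraAutOnUnits k E).ρ g (unitOfBase k E a) = unitOfBase k E a := by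
  have h : ∀ x y : Rep.ofAlgebraAutOnUnits k E,
      ((Additive.toMul (Rep.toAdditive x) : Eˣ) : E) = ((Additive.toMul (Rep.toAdditive y) : Eˣ) : E)
        → x = y := by
    intro x y hxy
    have h1 : (Additive.toMul (Rep.toAdditive x) : Eˣ) = Additive.toMul (Rep.toAdditive y) :=
      Units.ext hxy
    exact h1
  apply h
  show g (algebraMap k E (a : k)) = algebraMap k E (a : k)
  exact g.commutes _

end Inj

end Local

/-! ### Generators of subgroups of cyclic groups -/

/-- If `φ : G' → G` is injective and `σ` generates the finite group `G`, then `G'` is generated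
by an element `τ` with `φ τ = σ ^ d`, `d * orderOf τ = orderOf σ`. -/
theorem exists_gen_of_injective {G G' : Type} [Group G] [Group G'] [Finite G] [Finite G']
    (φ : G' →* G) (hinj : Function.Injective φ) (σ : G)
    (hσ : ∀ g : G, g ∈ Subgroup.zpowers σ) :
    ∃ (τ : G') (d : ℕ), (∀ g : G', g ∈ Subgroup.zpowers τ) ∧ φ τ = σ ^ d ∧
      d * orderOf τ = orderOf σ := by
  classical
  have : Fintype G := Fintype.ofFinite G
  have : Fintype G' := Fintype.ofFinite G'
  have : IsCyclic G := ⟨⟨σ, hσ⟩⟩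
  have hn : orderOf σ = Nat.card G := orderOf_eq_card_of_forall_mem_zpowers hσ
  have hm0 : 0 < Nat.card G' := Nat.card_pos
  obtain ⟨d, hd⟩ : Nat.card G' ∣ Nat.card G := Subgroup.card_dvd_of_injective φ hinj
  have hd0 : 0 < d := by
    rcases Nat.eq_zero_or_pos d with h | h
    · rw [h, mul_zero] at hd
      exact absurd hd Nat.card_pos.ne'
    · exact h
  have hS : (Finset.univ.filter fun g : G => g ^ Nat.card G' = 1).card ≤ Nat.card G' :=
    IsCyclic.card_pow_eq_one_le hm0
  have hT : (Finset.univ.image φ).card = Nat.card G' := by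
    rw [Finset.card_image_of_injective _ hinj, Finset.card_univ, Nat.card_eq_fintype_card]
  have hsub : Finset.univ.image φ ⊆ Finset.univ.filter fun g : G => g ^ Nat.card G' = 1 := by
    intro g hg
    obtain ⟨x, -, rfl⟩ := Finset.mem_image.1 hg
    rw [Finset.mem_filter]
    refine ⟨Finset.mem_univ _, ?_⟩
    rw [← map_pow, pow_card_eq_one', map_one]
  have heq := Finset.eq_of_subset_of_card_le hsub (by rw [hT]; exact hS)
  have hmem : σ ^ d ∈ Finset.univ.image φ := by
    rw [heq, Finset.mem_filter]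
    refine ⟨Finset.mem_univ _, ?_⟩
    rw [← pow_mul, mul_comm, ← hd, ← hn, pow_orderOf_eq_one]
  obtain ⟨τ, -, hτ⟩ := Finset.mem_image.1 hmem
  have hord : orderOf τ = Nat.card G' := by
    rw [← orderOf_injective φ hinj τ, hτ,
      orderOf_pow_of_dvd hd0.ne' (by rw [hn, hd]; exact dvd_mul_left d _), hn, hd]
    exact Nat.mul_div_cancel _ hd0
  refine ⟨τ, d, ?_, hτ, ?_⟩
  · intro g
    have h1 : Subgroup.zpowers τ = ⊤ := by
      apply Subgroup.eq_top_of_card_eq
      rw [Nat.card_zpowers, hord]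
    rw [h1]
    trivial
  · rw [hord, hn, hd, mul_comm]

section Cyc

variable {q : ℕ} [Fact q.Prime]

variable (k : Type) {E : Type} [Field k] [NumberField k] [Field E] [Algebra k E]
  [FiniteDimensional k E] [IsGalois k E] (τ' : E →+* PadicAlgCl q)

open Fermat.Agent.S55.H20

/-- A generator of the decomposition group `Gal(E_w/k_v)` adapted to the generator `σ` of
`Gal(E/k)`. -/
theorem exists_locGen (σ : E ≃ₐ[k] E) (hσ : ∀ g : E ≃ₐ[k] E, g ∈ Subgroup.zpowers σ) :
    ∃ (τ : locExt q k τ' ≃ₐ[locBase q k τ'] locExt q k τ') (d : ℕ),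
      (∀ g : locExt q k τ' ≃ₐ[locBase q k τ'] locExt q k τ', g ∈ Subgroup.zpowers τ) ∧
        locGalToGlobal q k τ' τ = σ ^ d ∧ d * orderOf τ = orderOf σ :=
  exists_gen_of_injective (locGalToGlobal q k τ') (locGalToGlobal_injective k τ') σ hσ

/-- **(A)** The localisation of the cyclic class `cycClass σ a`, `a ∈ kˣ`, is the cyclic class
`cycClass τ a_v` for an adapted generator `τ` of the decomposition group. -/
theorem locH2At_cycClass (σ : E ≃ₐ[k] E) (hσ : ∀ g : E ≃ₐ[k] E, g ∈ Subgroup.zpowers σ)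
    (τ : locExt q k τ' ≃ₐ[locBase q k τ'] locExt q k τ') (d : ℕ)
    (hτ : ∀ g : locExt q k τ' ≃ₐ[locBase q k τ'] locExt q k τ', g ∈ Subgroup.zpowers τ)
    (hτσ : locGalToGlobal q k τ' τ = σ ^ d) (hd : d * orderOf τ = orderOf σ) (a : kˣ) :
    locH2At q k τ' (cycClass (Rep.ofAlgebraAutOnUnits k E) σ (unitOfBase k E a))
      = cycClass (Rep.ofAlgebraAutOnUnits (locBase q k τ') (locExt q k τ')) τ
          (baseUnit (locExt q k τ') (locUnit k τ' a)) := by
  have h := Fermat.Agent.S55.H80.leafCycRes ℤ (E ≃ₐ[k] E)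
    (locExt q k τ' ≃ₐ[locBase q k τ'] locExt q k τ')
    (Rep.ofAlgebraAutOnUnits k E) (Rep.ofAlgebraAutOnUnits (locBase q k τ') (locExt q k τ'))
    (locGalToGlobal q k τ') (globalToLocUnits q k τ') σ τ d hσ hτ
    (locGalToGlobal_injective k τ') hτσ hd (unitOfBase k E a) (unitOfBase_invariant k a)
  rw [globalToLocUnits_unitOfBase] at h
  exact h

/-- **(B)** If the local invariant of `cycClass σ a` (`a ∈ kˣ`) vanishes, then `a` is a norm
from `E_w`. -/
theorem exists_norm_of_linvAt_eq_zero (σ : E ≃ₐ[k] E)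
    (hσ : ∀ g : E ≃ₐ[k] E, g ∈ Subgroup.zpowers σ) (a : kˣ)
    (h : linvAt q k τ' (cycClass (Rep.ofAlgebraAutOnUnits k E) σ (unitOfBase k E a)) = 0) :
    ∃ y : (locExt q k τ')ˣ,
      Algebra.norm (locBase q k τ') (y : locExt q k τ') = (locUnit k τ' a : locBase q k τ') := by
  classical
  obtain ⟨τ, d, hτ, hτσ, hd⟩ := exists_locGen k τ' σ hσ
  have hA := locH2At_cycClass k τ' σ hσ τ d hτ hτσ hd a
  have h1 : inv q (locExt q k τ')
      (cycClass (Rep.ofAlgebraAutOnUnits (locBase q k τ') (locExt q k τ')) τ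
        (baseUnit (locExt q k τ') (locUnit k τ' a))) = 0 := by
    rw [← hA]
    exact h
  have hinj := (c3_inv q (locBase q k τ') (locExt q k τ')).2.1
  have h2 : cycClass (Rep.ofAlgebraAutOnUnits (locBase q k τ') (locExt q k τ')) τ
      (baseUnit (locExt q k τ') (locUnit k τ' a)) = 0 := hinj (h1.trans (map_zero _).symm)
  obtain ⟨b, hb⟩ := (Fermat.Agent.S55.H37.leafCycZero ℤ
    (locExt q k τ' ≃ₐ[locBase q k τ'] locExt q k τ')
    (Rep.ofAlgebraAutOnUnits (locBase q k τ') (locExt q k τ')) τ hτ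
    (baseUnit (locExt q k τ') (locUnit k τ' a))
    (Fermat.Agent.S55.H24.baseUnit_invariant (locExt q k τ') (locUnit k τ' a))).1 h2
  refine ⟨Fermat.Agent.S55.H24.toUnit (locExt q k τ') b, ?_⟩
  apply (algebraMap (locBase q k τ') (locExt q k τ')).injective
  rw [Algebra.norm_eq_prod_automorphisms]
  have h3 := congrArg (fun x => ((Fermat.Agent.S55.H24.toUnit (locExt q k τ') x :
    (locExt q k τ')ˣ) : locExt q k τ')) hb
  simp only [Fermat.Agent.S55.H24.toUnit_sum, Units.coe_prod,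
    Fermat.Agent.S55.H24.toUnit_rho] at h3
  exact h3

/-- **(B)**, in coordinates of `PadicAlgCl q`. -/
theorem exists_norm_of_linvAt_eq_zero' (σ : E ≃ₐ[k] E)
    (hσ : ∀ g : E ≃ₐ[k] E, g ∈ Subgroup.zpowers σ) (a : kˣ)
    (h : linvAt q k τ' (cycClass (Rep.ofAlgebraAutOnUnits k E) σ (unitOfBase k E a)) = 0) :
    ∃ y : locExt q k τ',
      ((algebraMap (locBase q k τ') (locExt q k τ') (Algebra.norm (locBase q k τ') y) :
        locExt q k τ') : PadicAlgCl q) = τ' (algebraMap k E (a : k)) := by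
  obtain ⟨y, hy⟩ := exists_norm_of_linvAt_eq_zero k τ' σ hσ a h
  refine ⟨(y : locExt q k τ'), ?_⟩
  rw [hy]
  rfl

/-- **(C)** If `E_w/k_v` is unramified with Frobenius `φ`, the local invariant of
`cycClass σ a` (`a ∈ kˣ`) is `ord_v(a) • chi σ (Frob)`, where `Frob ∈ Gal(E/k)` is the image of
`φ`. -/
theorem linvAt_cycClass_of_unram (σ : E ≃ₐ[k] E)
    (hσ : ∀ g : E ≃ₐ[k] E, g ∈ Subgroup.zpowers σ) (a : kˣ)
    (hunr : IsUnram q (locBase q k τ') (locExt q k τ'))
    (φ : locExt q k τ' ≃ₐ[locBase q k τ'] locExt q k τ') (hφ : IsFrob q (locExt q k τ') φ) :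
    linvAt q k τ' (cycClass (Rep.ofAlgebraAutOnUnits k E) σ (unitOfBase k E a))
      = ord q ((locUnit k τ' a : (locBase q k τ')ˣ) : locBase q k τ')
          • chi σ (locGalToGlobal q k τ' φ) := by
  classical
  obtain ⟨τ, d, hτ, hτσ, hd⟩ := exists_locGen k τ' σ hσ
  have hA := locH2At_cycClass k τ' σ hσ τ d hτ hτσ hd a
  obtain ⟨φ0, hφ0, huniq, hgen0⟩ := c3_frob q (locBase q k τ') (locExt q k τ') hunr
  have hφeq : φ = φ0 := huniq φ hφ
  have hgen : ∀ g : locExt q k τ' ≃ₐ[locBase q k τ'] locExt q k τ', g ∈ Subgroup.zpowers φ := by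
    rw [hφeq]
    exact hgen0
  have hφt : τ ^ cycIdx τ φ = φ := Fermat.Agent.S55.H80.cycIdx_spec hτ φ
  have hτ0 : 0 < orderOf τ := orderOf_pos τ
  have hcop : Nat.Coprime (cycIdx τ φ) (orderOf τ) := by
    have h1 : orderOf φ = orderOf τ := by
      rw [orderOf_eq_card_of_forall_mem_zpowers hgen, orderOf_eq_card_of_forall_mem_zpowers hτ]
    rw [← hφt, orderOf_pow] at h1
    have h2 : Nat.gcd (orderOf τ) (cycIdx τ φ) ∣ orderOf τ := Nat.gcd_dvd_left _ _
    obtain ⟨c, hc⟩ := h2
    have hg0 : 0 < Nat.gcd (orderOf τ) (cycIdx τ φ) := Nat.gcd_pos_of_pos_left _ hτ0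
    have h3 : orderOf τ / Nat.gcd (orderOf τ) (cycIdx τ φ) = c :=
      Nat.div_eq_of_eq_mul_right hg0 hc
    rw [h3] at h1
    rw [h1] at hc
    have h4 : Nat.gcd (orderOf τ) (cycIdx τ φ) = 1 := by
      have h5 : Nat.gcd (orderOf τ) (cycIdx τ φ) * orderOf τ = 1 * orderOf τ := by
        rw [one_mul]
        exact hc.symm
      exact Nat.eq_of_mul_eq_mul_right hτ0 h5
    rw [Nat.coprime_iff_gcd_eq_one, Nat.gcd_comm]
    exact h4
  have hCY5 := Fermat.Agent.S55.H37.leafCycGen ℤ
    (locExt q k τ' ≃ₐ[locBase q k τ'] locExt q k τ')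
    (Rep.ofAlgebraAutOnUnits (locBase q k τ') (locExt q k τ')) τ hτ (cycIdx τ φ) hcop
    (baseUnit (locExt q k τ') (locUnit k τ' a))
    (Fermat.Agent.S55.H24.baseUnit_invariant (locExt q k τ') (locUnit k τ' a))
  have hunrF := c3_invUnr q (locBase q k τ') (locExt q k τ') hunr φ hφ
    ((locUnit k τ' a) ^ cycIdx τ φ)
  have hglob : locGalToGlobal q k τ' φ = σ ^ (d * cycIdx τ φ) := by
    have h1 : locGalToGlobal q k τ' (τ ^ cycIdx τ φ) = σ ^ (d * cycIdx τ φ) := by
      rw [map_pow, hτσ, ← pow_mul]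
    rw [hφt] at h1
    exact h1
  have hord : ord q ((((locUnit k τ' a) ^ cycIdx τ φ : (locBase q k τ')ˣ)) : locBase q k τ')
      = cycIdx τ φ * ord q ((locUnit k τ' a : (locBase q k τ')ˣ) : locBase q k τ') := by
    rw [Units.val_pow_eq_pow_val]
    exact Fermat.Agent.S55.H24.ord_pow (leafOrd q) (Units.ne_zero _) _
  have hfin : Module.finrank (locBase q k τ') (locExt q k τ') = orderOf τ := by
    rw [orderOf_eq_card_of_forall_mem_zpowers hτ, IsGalois.card_aut_eq_finrank]
  show inv q (locExt q k τ') (locH2At q k τ' _) = _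
  rw [hA, ← hCY5, hφt, ← Fermat.Agent.S55.H24.baseUnit_pow, hunrF, hglob,
    chi_pow σ (orderOf_pos σ), hord, hfin, ← AddCircle.coe_zsmul]
  congr 1
  have hτq : (orderOf τ : ℚ) ≠ 0 := by exact_mod_cast hτ0.ne'
  have hd0 : (d : ℚ) ≠ 0 := by
    intro h0
    have h1 : d = 0 := by exact_mod_cast h0
    rw [h1, zero_mul] at hd
    exact (orderOf_pos σ).ne' hd.symm
  rw [← hd]
  push_cast
  rw [zsmul_eq_mul]
  field_simp

end Cyc

end Fermat.Agent.S55.H18
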