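/-
S55 (Poitou–Tate), package C3 (local fields), leaf L4 (helper18).

Successive approximation in a complete filtered abelian group.

`B` is a commutative group with a decreasing filtration `F n` by subgroups which is separated
(`⋂ F n = 1`) and complete (infinite products of elements `y n ∈ F n` converge).  `f, g` are
endomorphisms with `f ∘ g = 1`, `g` preserving the filtration.  If on every graded piece
"`ker f ⊆ im g`" holds (in the form: `x ∈ F n`, `f x ∈ F (n+1)` implies `x ≡ g y` modulo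
`F (n+1)` with `y ∈ F n`), then `ker f ∩ F 0 ⊆ g (F 0)`.
-/
import Mathlib

set_option autoImplicit false

namespace Fermat.Agent.S55.H18

open Finset

section Approx

variable {B : Type*} [CommGroup B]

/-- auxiliary: one approximation step. -/
theorem approx_step (F : ℕ → Subgroup B) (f g : B →* B) (hfg : ∀ b, f (g b) = 1)
    (hgr : ∀ n, ∀ x ∈ F n, f x ∈ F (n + 1) → ∃ y ∈ F n, x / g y ∈ F (n + 1))
    (n : ℕ) (x : B) (hx : x ∈ F n) (hfx : f x = 1) :
    ∃ y ∈ F n, x / g y ∈ F (n + 1) ∧ f (x / g y) = 1 := by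
  obtain ⟨y, hy, hxy⟩ := hgr n x hx (by rw [hfx]; exact (F (n + 1)).one_mem)
  exact ⟨y, hy, hxy, by rw [map_div, hfx, hfg, div_one]⟩

/-- **Successive approximation.**  See the file header. -/
theorem exists_eq_of_graded (F : ℕ → Subgroup B) (f g : B →* B)
    (hfg : ∀ b, f (g b) = 1)
    (hgF : ∀ n, ∀ b ∈ F n, g b ∈ F n)
    (hsep : ∀ b, (∀ n, b ∈ F n) → b = 1)
    (hcomp : ∀ y : ℕ → B, (∀ n, y n ∈ F n) → ∃ P : B, ∀ n, P / ∏ i ∈ range n, y i ∈ F n)
    (hgr : ∀ n, ∀ x ∈ F n, f x ∈ F (n + 1) → ∃ y ∈ F n, x / g y ∈ F (n + 1))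
    (x : B) (hx : x ∈ F 0) (hfx : f x = 1) : ∃ y ∈ F 0, g y = x := by
  classical
  -- the approximating sequence `x n ∈ F n ∩ ker f`
  let T : ℕ → Type _ := fun n => {z : B // z ∈ F n ∧ f z = 1}
  have step : ∀ n (z : T n), ∃ y ∈ F n, z.1 / g y ∈ F (n + 1) ∧ f (z.1 / g y) = 1 :=
    fun n z => approx_step F f g hfg hgr n z.1 z.2.1 z.2.2
  let yof : ∀ n, T n → B := fun n z => (step n z).choose
  have yof_spec : ∀ n (z : T n), yof n z ∈ F n ∧ z.1 / g (yof n z) ∈ F (n + 1) ∧
      f (z.1 / g (yof n z)) = 1 := fun n z => (step n z).choose_spec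
  let xs : ∀ n, T n := fun n => Nat.rec (motive := T) ⟨x, hx, hfx⟩
    (fun n z => ⟨z.1 / g (yof n z), (yof_spec n z).2.1, (yof_spec n z).2.2⟩) n
  let y : ℕ → B := fun n => yof n (xs n)
  have hy : ∀ n, y n ∈ F n := fun n => (yof_spec n (xs n)).1
  have hxs_succ : ∀ n, (xs (n + 1)).1 = (xs n).1 / g (y n) := fun n => rfl
  have hxs : ∀ n, (xs n).1 = x / g (∏ i ∈ range n, y i) := by
    intro n
    induction n with
    | zero => simp [xs]
    | succ n ih =>
      rw [hxs_succ, ih, prod_range_succ, map_mul, div_div]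
  obtain ⟨P, hP⟩ := hcomp y hy
  refine ⟨P, ?_, ?_⟩
  · have := hP 0
    simpa using this
  · have hsub : ∀ n, x / g P ∈ F n := by
      intro n
      have h1 : (xs n).1 ∈ F n := (xs n).2.1
      have h2 : g (P / ∏ i ∈ range n, y i) ∈ F n := hgF n _ (hP n)
      have h3 : x / g P = (xs n).1 / g (P / ∏ i ∈ range n, y i) := by
        rw [hxs, map_div, div_div_div_cancel_right]
      rw [h3]
      exact (F n).div_mem h1 h2
    have := hsep _ hsub
    exact (div_eq_one.1 this).symm

end Approx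

end Fermat.Agent.S55.H18
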