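/-
Program C (S55), package C8, export (B4): CLOSING FILE for helper29's `LiftStatement p` and
`H3KillStatement p` (`H29/C8Cls.lean`) — UNCONDITIONAL.

Every leaf of `C8Cls.lean` is on main and is plugged in here:
* (B2) `H52.recStatement`, (B3) `H52.cyclicExStatement`;
* IDELE-H3 `H35.ideleH3`; CYC-H3 `H65.cycH3Statement`; J-FIN `H41.jFinStatement`;
  J-ADM `H52.jAdmStatement`; J-DETECT `H45.jDetectStatement`; J-INF `H16.jInfStatement`;
  J-RES `H4.jResStatement`; CLASS-INV `H13.classInvStatement`; CLASS-INFRES `H83.classInfRes_of`;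
  CLASS-SYLOW `H4.classSylowStatement`; CLASS-H1 `H37.classH1Statement`;
  SumLocDeg `H79.sumLocDegStatement`; FULL-PLACE `H52.fullPlaceStatement`;
* assemblies CYC-KER `H37.cycKer_of`, CLASS-CYC `H88.classCyc_of_cyclicEx` (no J-SURJ),
  CLASS-PBOUND `H37.classPBound_of`, LIFT `H18.liftStatement_of`, `H29.h3Kill_of`.
-/
import Fermat.Agent.S55.H18.C8Lift
import Fermat.Agent.S55.H41.JFin
import Fermat.Agent.S55.H52.JAdm
import Fermat.Agent.S55.H45.JDetect
import Fermat.Agent.S55.H16.JInf
import Fermat.Agent.S55.H4.JRes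
import Fermat.Agent.S55.H13.ClassInv
import Fermat.Agent.S55.H83.ClassInfRes
import Fermat.Agent.S55.H4.ClassSylow
import Fermat.Agent.S55.H37.ClassH1U
import Fermat.Agent.S55.H37.CycKer
import Fermat.Agent.S55.H88.ClassCycEx
import Fermat.Agent.S55.H37.ClassPBound
import Fermat.Agent.S55.H65.CycH3
import Fermat.Agent.S55.H35.IdeleH3
import Fermat.Agent.S55.H52.C8Final

set_option autoImplicit false

open CategoryTheory groupCohomology Rep

noncomputable section

namespace Fermat.Agent.S55.H18

open Fermat.Agent.S55.H88 Fermat.Agent.S55.H66 Fermat.Agent.S55.H29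

/-- (IDELE-H3), in the shape of `H29.IdeleH3Statement`. -/
theorem ideleH3Statement : IdeleH3Statement := fun k K _ _ _ _ _ _ =>
  Fermat.Agent.S55.H35.ideleH3 k K

/-- (CLASS-INFRES), unconditional. -/
theorem classInfResStatement : ClassInfResStatement :=
  Fermat.Agent.S55.H83.classInfRes_of Fermat.Agent.S55.H13.classInvStatement

/-- (CYC-KER), unconditional. -/
theorem cycKerStatement (p : ℕ) : CycKerStatement p :=
  Fermat.Agent.S55.H37.cycKer_of p (Fermat.Agent.S55.H52.cyclicExStatement p)
    Fermat.Agent.S55.H41.jFinStatement Fermat.Agent.S55.H52.jAdmStatement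
    Fermat.Agent.S55.H45.jDetectStatement

/-- (CLASS-CYC), unconditional. -/
theorem classCycStatement (p : ℕ) : ClassCycStatement p := fun hp hp2 =>
  Fermat.Agent.S55.H88.classCyc_of_cyclicEx Fermat.Agent.S55.H65.cycH3Statement
    (cycKerStatement p) (Fermat.Agent.S55.H52.recStatement hp hp2)
    (Fermat.Agent.S55.H52.cyclicExStatement p) Fermat.Agent.S55.H52.fullPlaceStatement
    Fermat.Agent.S55.H41.jFinStatement hp hp2

/-- (CLASS-PBOUND), unconditional. -/
theorem classPBoundStatement (p : ℕ) : ClassPBoundStatement p :=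
  Fermat.Agent.S55.H37.classPBound_of p (classCycStatement p)
    (Fermat.Agent.S55.H37.classH1Statement p) classInfResStatement

/-- **(LIFT)**, unconditional: `K/k` Galois of degree `p ^ a * m'` (`p ∤ m'`), `E/k` cyclic of
degree `p ^ a`, `L = K·E`, `μ_p ⊆ k`, `p` odd: every `p`-primary class of `H²(Gal(K/k), C_K)`
inflates into the image of `H²(Gal(L/k), J_L)`. -/
theorem liftStatement (p : ℕ) : LiftStatement p := fun hp hp2 =>
  liftStatement_of Fermat.Agent.S55.H41.jFinStatement Fermat.Agent.S55.H16.jInfStatement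
    Fermat.Agent.S55.H4.jResStatement Fermat.Agent.S55.H79.sumLocDegStatement
    classInfResStatement Fermat.Agent.S55.H4.classSylowStatement
    (Fermat.Agent.S55.H37.classH1Statement p) (cycKerStatement p) (classCycStatement p)
    (classPBoundStatement p) (Fermat.Agent.S55.H52.recStatement hp hp2) hp hp2

/-- **Export (B4)**, unconditional: inflation to `L = K·E` kills the `p`-primary classes of
`H³(Gal(K/k), Kˣ)`. -/
theorem h3KillStatement (p : ℕ) : H3KillStatement p :=
  h3Kill_of ideleH3Statement (liftStatement p)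

end Fermat.Agent.S55.H18
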