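/-
S55 (Poitou–Tate), package C3 (local fields), leaf L4 (helper18).

Two abstract consequences of Herbrand's lemma (`Fermat.Agent.S55.H84.hIdx_mul_internal`):

* `hIdxSub_eq_of_trivial_sub` : if `V ≤ U` are stable subgroups, `V` is cohomologically trivial
  (`ker f ∩ V = g V`, `ker g ∩ V = f V`) and `V` has finite index in `U`, then the two indices
  of `U` agree and are nonzero (`h(U) = 1`);
* `hIdx_eq_of_quot` : if moreover the indices of `B ⧸ U` are `n` and `1` and `ker g = im f` on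
  `B` ("Hilbert 90"), then `[ker f : im g] = n`.
-/
import Mathlib
import Fermat.Agent.S55.H84.Herbrand

set_option autoImplicit false

namespace Fermat.Agent.S55.H18

open AddSubgroup Fermat.Agent.S55.H84

section HerbrandSub

variable {B : Type*} [AddCommGroup B] {f g : B →+ B}

/-- the restriction of a stable endomorphism to a subgroup. -/
def restrictHom (U : AddSubgroup B) (f : B →+ B) (hfU : ∀ x ∈ U, f x ∈ U) : U →+ U :=
  (f.comp U.subtype).codRestrict U fun x => hfU x x.2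

theorem hIdx_restrictHom (U : AddSubgroup B) (hfU : ∀ x ∈ U, f x ∈ U)
    (hgU : ∀ x ∈ U, g x ∈ U) :
    hIdx (restrictHom U f hfU) (restrictHom U g hgU) = hIdxSub U f g := by
  have h := hIdx_eq_hIdxSub (fA := restrictHom U f hfU) (gA := restrictHom U g hgU)
    (fB := f) (gB := g) (i := U.subtype) U.subtype_injective (fun _ => rfl) (fun _ => rfl)
  rwa [AddSubgroup.range_subtype] at h

/-- a finite-index cohomologically trivial subgroup forces Herbrand quotient one. -/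
theorem hIdx_eq_of_trivial_sub (V : AddSubgroup B) (hfg : ∀ b, f (g b) = 0)
    (hgf : ∀ b, g (f b) = 0) (hfV : ∀ x ∈ V, f x ∈ V) (hgV : ∀ x ∈ V, g x ∈ V)
    (h1 : ∀ v ∈ V, f v = 0 → ∃ w ∈ V, g w = v) (h2 : ∀ v ∈ V, g v = 0 → ∃ w ∈ V, f w = v)
    (hfin : V.index ≠ 0) : hIdx f g = hIdx g f ∧ hIdx f g ≠ 0 := by
  have hs1 : hIdxSub V f g = 1 := by
    unfold hIdxSub
    rw [relIndex_eq_one]
    rintro x ⟨hx, hxV⟩
    obtain ⟨w, hw, rfl⟩ := h1 x hxV hx
    exact ⟨w, hw, rfl⟩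
  have hs2 : hIdxSub V g f = 1 := by
    unfold hIdxSub
    rw [relIndex_eq_one]
    rintro x ⟨hx, hxV⟩
    obtain ⟨w, hw, rfl⟩ := h2 x hxV hx
    exact ⟨w, hw, rfl⟩
  -- the quotient
  have : V.FiniteIndex := ⟨hfin⟩
  have hfinq : Finite (B ⧸ V) := AddSubgroup.finite_quotient_of_finiteIndex
  let fC : B ⧸ V →+ B ⧸ V := QuotientAddGroup.map V V f hfV
  let gC : B ⧸ V →+ B ⧸ V := QuotientAddGroup.map V V g hgV
  have hfgC : ∀ c, fC (gC c) = 0 := by
    intro c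
    induction c using QuotientAddGroup.induction_on with
    | H b =>
      show ((f (g b) : B) : B ⧸ V) = 0
      rw [hfg]; rfl
  have hgfC : ∀ c, gC (fC c) = 0 := by
    intro c
    induction c using QuotientAddGroup.induction_on with
    | H b =>
      show ((g (f b) : B) : B ⧸ V) = 0
      rw [hgf]; rfl
  obtain ⟨hq, hq0⟩ := hIdx_eq_of_finite (f := fC) (g := gC) hfgC hgfC
  have e1 : hIdx fC gC = hIdxQuot V f g := by
    have h := hIdx_eq_hIdxQuot (fB := f) (gB := g) (fC := fC) (gC := gC)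
      (π := QuotientAddGroup.mk' V) (QuotientAddGroup.mk'_surjective V) (fun _ => rfl)
      (fun _ => rfl)
    rwa [QuotientAddGroup.ker_mk'] at h
  have e2 : hIdx gC fC = hIdxQuot V g f := by
    have h := hIdx_eq_hIdxQuot (fB := g) (gB := f) (fC := gC) (gC := fC)
      (π := QuotientAddGroup.mk' V) (QuotientAddGroup.mk'_surjective V) (fun _ => rfl)
      (fun _ => rfl)
    rwa [QuotientAddGroup.ker_mk'] at h
  have hmul := hIdx_mul_internal V hfg hgf hfV hgV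
  rw [hs1, hs2, one_mul, one_mul, ← e1, ← e2, ← hq] at hmul
  have hne := hIdx_ne_zero_of_sub_quot V hfg hgf hfV hgV (by rw [hs1]; exact one_ne_zero)
    (by rw [hs2]; exact one_ne_zero) (by rw [← e1]; exact hq0) (by rw [← e2, ← hq]; exact hq0)
  exact ⟨(Nat.eq_of_mul_eq_mul_left (Nat.pos_of_ne_zero hq0) hmul).symm, hne.1⟩

/-- relative form of `hIdx_eq_of_trivial_sub` : `V ≤ U` of finite relative index. -/
theorem hIdxSub_eq_of_trivial_sub (U V : AddSubgroup B) (hVU : V ≤ U) (hfg : ∀ b, f (g b) = 0)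
    (hgf : ∀ b, g (f b) = 0) (hfU : ∀ x ∈ U, f x ∈ U) (hgU : ∀ x ∈ U, g x ∈ U)
    (hfV : ∀ x ∈ V, f x ∈ V) (hgV : ∀ x ∈ V, g x ∈ V)
    (h1 : ∀ v ∈ V, f v = 0 → ∃ w ∈ V, g w = v) (h2 : ∀ v ∈ V, g v = 0 → ∃ w ∈ V, f w = v)
    (hfin : V.relIndex U ≠ 0) : hIdxSub U f g = hIdxSub U g f ∧ hIdxSub U f g ≠ 0 := by
  rw [← hIdx_restrictHom U hfU hgU, ← hIdx_restrictHom U hgU hfU]
  refine hIdx_eq_of_trivial_sub (V.addSubgroupOf U) ?_ ?_ ?_ ?_ ?_ ?_ hfin
  · intro b; exact Subtype.ext (hfg b)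
  · intro b; exact Subtype.ext (hgf b)
  · intro x hx; exact hfV x hx
  · intro x hx; exact hgV x hx
  · intro v hv hv0
    obtain ⟨w, hw, hwv⟩ := h1 v hv (congrArg Subtype.val hv0)
    exact ⟨⟨w, hVU hw⟩, hw, Subtype.ext hwv⟩
  · intro v hv hv0
    obtain ⟨w, hw, hwv⟩ := h2 v hv (congrArg Subtype.val hv0)
    exact ⟨⟨w, hVU hw⟩, hw, Subtype.ext hwv⟩

/-- the index `[ker f : im g]` from a cohomologically trivial subgroup of finite index in `U`,
the indices of `B ⧸ U`, and "Hilbert 90". -/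
theorem hIdx_eq_of_quot (U V : AddSubgroup B) (hVU : V ≤ U) (hfg : ∀ b, f (g b) = 0)
    (hgf : ∀ b, g (f b) = 0) (hfU : ∀ x ∈ U, f x ∈ U) (hgU : ∀ x ∈ U, g x ∈ U)
    (hfV : ∀ x ∈ V, f x ∈ V) (hgV : ∀ x ∈ V, g x ∈ V)
    (h1 : ∀ v ∈ V, f v = 0 → ∃ w ∈ V, g w = v) (h2 : ∀ v ∈ V, g v = 0 → ∃ w ∈ V, f w = v)
    (hfin : V.relIndex U ≠ 0) {n : ℕ} (hq1 : hIdxQuot U f g = n) (hq2 : hIdxQuot U g f = 1)
    (h90 : ∀ x, g x = 0 → ∃ y, f y = x) : hIdx f g = n := by
  obtain ⟨hc, hc0⟩ := hIdxSub_eq_of_trivial_sub U V hVU hfg hgf hfU hgU hfV hgV h1 h2 hfin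
  have h90' : hIdx g f = 1 := by
    unfold hIdx
    rw [relIndex_eq_one]
    intro x hx
    obtain ⟨y, rfl⟩ := h90 x hx
    exact ⟨y, rfl⟩
  have hmul := hIdx_mul_internal U hfg hgf hfU hgU
  rw [hq1, hq2, h90', ← hc, mul_one, mul_one] at hmul
  exact (Nat.eq_of_mul_eq_mul_left (Nat.pos_of_ne_zero hc0) hmul).symm

end HerbrandSub

end Fermat.Agent.S55.H18
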