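/-
S55 (Poitou–Tate), package C3 (local fields), leaf L4 (helper18).

The normal-basis lattice of a finite Galois extension `L/K` of ultrametric normed fields on
which the Galois group acts by isometries.

`b` is a normal basis (`b σ = σ (b 1)`), scaled into the unit ball; `π ∈ K` has `0 < ‖π‖ < 1`;
`lam b π i` is the set of `x ∈ L` all of whose `b`-coordinates have norm `≤ ‖π‖ ^ i`
(`= π ^ i Λ` for the `𝒪_K`-lattice `Λ` spanned by `b`).  It is Galois-stable and sandwiched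
between balls: `B(‖π‖ ^ (i + a)) ⊆ lam i ⊆ B(‖π‖ ^ i)`.
-/
import Mathlib

set_option autoImplicit false
set_option linter.unusedSectionVars false

namespace Fermat.Agent.S55.H18

open Finset Module

section Lattice

variable {K L : Type*} [Field K] [NormedField L] [IsUltrametricDist L]
  [Algebra K L] [FiniteDimensional K L] [IsGalois K L]

theorem norm_algebraMap_trace_le (hiso : ∀ (σ : L ≃ₐ[K] L) (x : L), ‖σ x‖ = ‖x‖) (y : L) :
    ‖algebraMap K L (Algebra.trace K L y)‖ ≤ ‖y‖ := by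
  rw [trace_eq_sum_automorphisms]
  exact IsUltrametricDist.norm_sum_le_of_forall_le_of_nonneg (norm_nonneg y)
    (fun σ _ => (hiso σ y).le)

theorem norm_algebraMap_norm (hiso : ∀ (σ : L ≃ₐ[K] L) (x : L), ‖σ x‖ = ‖x‖) (y : L) :
    ‖algebraMap K L (Algebra.norm K y)‖ = ‖y‖ ^ Module.finrank K L := by
  rw [Algebra.norm_eq_prod_automorphisms, norm_prod]
  simp only [hiso, prod_const, card_univ]
  rw [← Nat.card_eq_fintype_card, IsGalois.card_aut_eq_finrank]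

open scoped Classical in
theorem norm_repr_le (hiso : ∀ (σ : L ≃ₐ[K] L) (x : L), ‖σ x‖ = ‖x‖)
    (b : Basis (L ≃ₐ[K] L) K L) (x : L) (σ : L ≃ₐ[K] L) :
    ‖algebraMap K L (b.repr x σ)‖ ≤ ‖x‖ * ‖b.traceDual σ‖ := by
  have h : b.repr x σ = Algebra.trace K L (x * b.traceDual σ) := by
    conv_lhs => rw [← b.traceDual_traceDual]
    rw [Basis.traceDual_repr_apply, Algebra.traceForm_apply]
  rw [h]
  exact (norm_algebraMap_trace_le hiso _).trans (norm_mul_le _ _)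

/-- The hypotheses on a normal basis `b`, a scalar `π` of `K` and the constant `a`. -/
structure IsNB (b : Basis (L ≃ₐ[K] L) K L) (π : K) (a : ℕ) : Prop where
  iso : ∀ (σ : L ≃ₐ[K] L) (x : L), ‖σ x‖ = ‖x‖
  apply : ∀ σ : L ≃ₐ[K] L, b σ = σ (b 1)
  norm_le : ‖b 1‖ ≤ 1
  pos : 0 < ‖algebraMap K L π‖
  lt_one : ‖algebraMap K L π‖ < 1
  bound : ∀ (x : L) (σ : L ≃ₐ[K] L),
    ‖algebraMap K L (b.repr x σ)‖ * ‖algebraMap K L π‖ ^ a ≤ ‖x‖

/-- `π ^ i Λ` : elements whose coordinates have norm at most `‖π‖ ^ i`. -/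
def lam (b : Basis (L ≃ₐ[K] L) K L) (π : K) (i : ℕ) : AddSubgroup L where
  carrier := {x | ∀ σ, ‖algebraMap K L (b.repr x σ)‖ ≤ ‖algebraMap K L π‖ ^ i}
  zero_mem' := by intro σ; simp
  add_mem' := by
    intro x y hx hy σ
    simp only [map_add, Finsupp.add_apply]
    exact (IsUltrametricDist.norm_add_le_max _ _).trans (max_le (hx σ) (hy σ))
  neg_mem' := by
    intro x hx σ
    simpa using hx σ

variable {b : Basis (L ≃ₐ[K] L) K L} {π : K} {a : ℕ}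

theorem mem_lam_iff {i : ℕ} {x : L} :
    x ∈ lam b π i ↔ ∀ σ, ‖algebraMap K L (b.repr x σ)‖ ≤ ‖algebraMap K L π‖ ^ i := Iff.rfl

namespace IsNB

variable (h : IsNB b π a)
include h

theorem lam_anti {i j : ℕ} (hij : i ≤ j) : lam b π j ≤ lam b π i := by
  intro x hx σ
  exact (hx σ).trans (pow_le_pow_of_le_one h.pos.le h.lt_one.le hij)

theorem norm_apply (σ : L ≃ₐ[K] L) : ‖b σ‖ ≤ 1 := by
  rw [h.apply, h.iso]; exact h.norm_le

theorem repr_aut (τ : L ≃ₐ[K] L) (x : L) (σ : L ≃ₐ[K] L) :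
    b.repr (τ x) σ = b.repr x (τ⁻¹ * σ) := by
  classical
  have hx : τ x = ∑ ρ, b.repr x ρ • b (τ * ρ) := by
    conv_lhs => rw [← b.sum_repr x]
    rw [map_sum]
    refine sum_congr rfl fun ρ _ => ?_
    rw [map_smul, h.apply ρ, h.apply (τ * ρ), AlgEquiv.mul_apply]
  rw [hx, map_sum, Finsupp.coe_finsetSum, Finset.sum_apply]
  rw [sum_eq_single (τ⁻¹ * σ)]
  · rw [map_smul, Basis.repr_self, Finsupp.smul_apply, mul_inv_cancel_left,
      Finsupp.single_eq_same, smul_eq_mul, mul_one]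
  · intro ρ _ hρ
    rw [map_smul, Basis.repr_self, Finsupp.smul_apply, Finsupp.single_eq_of_ne, smul_zero]
    intro hσ
    apply hρ
    rw [hσ, inv_mul_cancel_left]
  · intro hσ; exact absurd (mem_univ _) hσ

theorem aut_mem_lam {i : ℕ} {x : L} (hx : x ∈ lam b π i) (τ : L ≃ₐ[K] L) : τ x ∈ lam b π i := by
  intro σ
  rw [h.repr_aut]
  exact hx _

theorem norm_le_of_mem_lam {i : ℕ} {x : L} (hx : x ∈ lam b π i) :
    ‖x‖ ≤ ‖algebraMap K L π‖ ^ i := by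
  rw [← b.sum_repr x]
  refine IsUltrametricDist.norm_sum_le_of_forall_le_of_nonneg (pow_nonneg h.pos.le _) ?_
  intro σ _
  rw [Algebra.smul_def, norm_mul]
  calc ‖algebraMap K L (b.repr x σ)‖ * ‖b σ‖ ≤ ‖algebraMap K L π‖ ^ i * 1 :=
        mul_le_mul (hx σ) (h.norm_apply σ) (norm_nonneg _) (pow_nonneg h.pos.le _)
    _ = ‖algebraMap K L π‖ ^ i := mul_one _

theorem mem_lam_of_norm_le {i : ℕ} {x : L} (hx : ‖x‖ ≤ ‖algebraMap K L π‖ ^ (i + a)) :
    x ∈ lam b π i := by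
  intro σ
  have h1 := (h.bound x σ).trans hx
  rw [pow_add] at h1
  exact le_of_mul_le_mul_right h1 (pow_pos h.pos _)

theorem mul_mem_lam {i j k : ℕ} {x y : L} (hx : x ∈ lam b π i) (hy : y ∈ lam b π j)
    (hk : k + a ≤ i + j) : x * y ∈ lam b π k := by
  apply h.mem_lam_of_norm_le
  rw [norm_mul]
  calc ‖x‖ * ‖y‖ ≤ ‖algebraMap K L π‖ ^ i * ‖algebraMap K L π‖ ^ j :=
        mul_le_mul (h.norm_le_of_mem_lam hx) (h.norm_le_of_mem_lam hy) (norm_nonneg _)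
          (pow_nonneg h.pos.le _)
    _ = ‖algebraMap K L π‖ ^ (i + j) := (pow_add _ _ _).symm
    _ ≤ ‖algebraMap K L π‖ ^ (k + a) := pow_le_pow_of_le_one h.pos.le h.lt_one.le hk

/-- the projection onto the component of the identity: `x ↦ c₁(x) • b 1`. -/
theorem proj_mem_lam {i : ℕ} {x : L} (hx : x ∈ lam b π i) : b.repr x 1 • b 1 ∈ lam b π i := by
  classical
  intro σ
  rw [map_smul, Basis.repr_self, Finsupp.smul_apply, smul_eq_mul]
  by_cases hσ : σ = 1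
  · rw [hσ, Finsupp.single_eq_same, mul_one]; exact hx 1
  · rw [Finsupp.single_eq_of_ne hσ, mul_zero, map_zero, norm_zero]
    exact pow_nonneg h.pos.le _

/-- `x = ∑ τ, τ (p (τ⁻¹ x))` with `p x = c₁(x) • b 1`. -/
theorem sum_aut_proj (x : L) : ∑ τ : L ≃ₐ[K] L, τ (b.repr (τ⁻¹ x) 1 • b 1) = x := by
  conv_rhs => rw [← b.sum_repr x]
  refine sum_congr rfl fun τ _ => ?_
  rw [map_smul, ← h.apply, h.repr_aut, inv_inv, mul_one]

end IsNB

open scoped Classical in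
/-- Existence of the data: a scaled normal basis, `π = N(ϖ)` and a constant `a`. -/
theorem exists_isNB (hiso : ∀ (σ : L ≃ₐ[K] L) (x : L), ‖σ x‖ = ‖x‖)
    (hϖ : ∃ ϖ : L, ϖ ≠ 0 ∧ ‖ϖ‖ < 1) :
    ∃ (b : Basis (L ≃ₐ[K] L) K L) (π : K) (a : ℕ), IsNB b π a := by
  obtain ⟨ϖ, hϖ0, hϖ1⟩ := hϖ
  set π : K := Algebra.norm K ϖ with hπ
  have hn : 0 < Module.finrank K L := Module.finrank_pos
  have hr : ‖algebraMap K L π‖ = ‖ϖ‖ ^ Module.finrank K L := norm_algebraMap_norm hiso ϖ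
  have hr0 : 0 < ‖algebraMap K L π‖ := by
    rw [hr]; exact pow_pos (norm_pos_iff.2 hϖ0) _
  have hr1 : ‖algebraMap K L π‖ < 1 := by
    rw [hr]; exact pow_lt_one₀ (norm_nonneg _) hϖ1 hn.ne'
  have hπ0 : π ≠ 0 := by
    intro h0
    rw [h0, map_zero, norm_zero] at hr0
    exact lt_irrefl _ hr0
  set b₀ : Basis (L ≃ₐ[K] L) K L := IsGalois.normalBasis K L with hb₀
  -- scale into the unit ball
  obtain ⟨k, hk⟩ : ∃ k : ℕ, ‖algebraMap K L π‖ ^ k * ‖b₀ 1‖ ≤ 1 := by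
    obtain ⟨k, hk⟩ := exists_pow_lt_of_lt_one (x := (‖b₀ 1‖ + 1)⁻¹)
      (inv_pos.2 (by positivity)) hr1
    refine ⟨k, ?_⟩
    have h1 : ‖algebraMap K L π‖ ^ k * ‖b₀ 1‖ ≤ (‖b₀ 1‖ + 1)⁻¹ * (‖b₀ 1‖ + 1) :=
      mul_le_mul hk.le (by linarith) (norm_nonneg _) (inv_nonneg.2 (by positivity))
    rwa [inv_mul_cancel₀ (by positivity)] at h1
  set b : Basis (L ≃ₐ[K] L) K L := b₀.unitsSMul (fun _ => Units.mk0 (π ^ k) (pow_ne_zero _ hπ0))
    with hb
  have hbσ : ∀ σ : L ≃ₐ[K] L, b σ = π ^ k • b₀ σ := by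
    intro σ
    rw [hb, Basis.unitsSMul_apply]
    rfl
  have happ : ∀ σ : L ≃ₐ[K] L, b σ = σ (b 1) := by
    intro σ
    rw [hbσ, hbσ, map_smul, hb₀, IsGalois.normalBasis_apply σ]
  have hnorm : ‖b 1‖ ≤ 1 := by
    rw [hbσ, Algebra.smul_def, norm_mul, map_pow, norm_pow]
    exact hk
  -- the constant `a`
  set C : ℝ := ∑ σ : L ≃ₐ[K] L, ‖b.traceDual σ‖ with hC
  have hC0 : 0 ≤ C := sum_nonneg fun _ _ => norm_nonneg _
  obtain ⟨a, ha⟩ : ∃ a : ℕ, C * ‖algebraMap K L π‖ ^ a ≤ 1 := by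
    obtain ⟨a, ha⟩ := exists_pow_lt_of_lt_one (x := (C + 1)⁻¹) (inv_pos.2 (by positivity)) hr1
    refine ⟨a, ?_⟩
    have h1 : C * ‖algebraMap K L π‖ ^ a ≤ (C + 1) * (C + 1)⁻¹ :=
      mul_le_mul (by linarith) ha.le (pow_nonneg hr0.le _) (by positivity)
    rwa [mul_inv_cancel₀ (by positivity)] at h1
  refine ⟨b, π, a, ⟨hiso, happ, hnorm, hr0, hr1, ?_⟩⟩
  intro x σ
  have h1 : ‖algebraMap K L (b.repr x σ)‖ ≤ ‖x‖ * C :=
    (norm_repr_le hiso b x σ).trans (mul_le_mul_of_nonneg_left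
      (single_le_sum (f := fun σ : L ≃ₐ[K] L => ‖b.traceDual σ‖) (fun _ _ => norm_nonneg _)
        (mem_univ σ)) (norm_nonneg _))
  calc ‖algebraMap K L (b.repr x σ)‖ * ‖algebraMap K L π‖ ^ a
      ≤ ‖x‖ * C * ‖algebraMap K L π‖ ^ a :=
        mul_le_mul_of_nonneg_right h1 (pow_nonneg hr0.le _)
    _ = ‖x‖ * (C * ‖algebraMap K L π‖ ^ a) := by ring
    _ ≤ ‖x‖ * 1 := mul_le_mul_of_nonneg_left ha (norm_nonneg _)
    _ = ‖x‖ := mul_one _

end Lattice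

end Fermat.Agent.S55.H18
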