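/-
S55 (Poitou–Tate), package C3 (local fields), leaf L4 (helper18).

The unit groups `V_i = 1 + π^(a+1+i) Λ` attached to a normal-basis lattice, the maps
`u ↦ σ u / u` and `u ↦ ∏ τ, τ u` on `Lˣ`, and the comparison of their graded pieces with the
additive maps `σ - 1` and the trace on `Λ / π Λ`.
-/
import Mathlib
import Fermat.Agent.S55.H18.Approx
import Fermat.Agent.S55.H18.Lattice

set_option autoImplicit false
set_option linter.unusedSectionVars false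

namespace Fermat.Agent.S55.H18

open Finset Module

section General

variable {L : Type*} [NormedField L] [IsUltrametricDist L]

/-- ultrametric: `‖u‖ = 1` if `‖u - 1‖ < 1`. -/
theorem norm_eq_one_of_norm_sub_one_lt {u : L} (hu : ‖u - 1‖ < 1) : ‖u‖ = 1 := by
  have h := IsUltrametricDist.norm_add_eq_max_of_norm_ne_norm (x := u - 1) (y := (1 : L))
    (by rw [norm_one]; exact hu.ne)
  rw [sub_add_cancel, norm_one, max_eq_right hu.le] at h
  exact h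

/-- ultrametric expansion of a product `∏ (1 + y i)` to first order. -/
theorem norm_prod_one_add_sub_le {ι : Type*} (s : Finset ι) (y : ι → L) {ε : ℝ} (hε0 : 0 ≤ ε)
    (hε1 : ε ≤ 1) (hy : ∀ i ∈ s, ‖y i‖ ≤ ε) :
    ‖∏ i ∈ s, (1 + y i) - 1‖ ≤ ε ∧ ‖∏ i ∈ s, (1 + y i) - 1 - ∑ i ∈ s, y i‖ ≤ ε ^ 2 := by
  classical
  induction s using Finset.induction_on with
  | empty => simp [hε0]
  | insert t s ht ih =>
    obtain ⟨h1, h2⟩ := ih (fun i hi => hy i (mem_insert_of_mem hi))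
    have hyt : ‖y t‖ ≤ ε := hy t (mem_insert_self t s)
    rw [prod_insert ht, sum_insert ht]
    set P := ∏ i ∈ s, (1 + y i) with hP
    have hmul : ‖y t * (P - 1)‖ ≤ ε ^ 2 := by
      rw [norm_mul, sq]
      exact mul_le_mul hyt h1 (norm_nonneg _) hε0
    have hε2 : ε ^ 2 ≤ ε := by
      rw [sq]; exact mul_le_of_le_one_left hε0 hε1
    constructor
    · have e : (1 + y t) * P - 1 = (P - 1) + (y t + y t * (P - 1)) := by ring
      rw [e]
      refine (IsUltrametricDist.norm_add_le_max _ _).trans (max_le h1 ?_)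
      exact (IsUltrametricDist.norm_add_le_max _ _).trans (max_le hyt (hmul.trans hε2))
    · have e : (1 + y t) * P - 1 - (y t + ∑ i ∈ s, y i)
          = (P - 1 - ∑ i ∈ s, y i) + y t * (P - 1) := by ring
      rw [e]
      exact (IsUltrametricDist.norm_add_le_max _ _).trans (max_le h2 hmul)

end General

section Maps

variable (K : Type*) {L : Type*} [Field K] [Field L] [Algebra K L] [FiniteDimensional K L]

/-- the action of an automorphism on units. -/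
def autU {K : Type*} [Field K] [Algebra K L] (σ : L ≃ₐ[K] L) : Lˣ →* Lˣ :=
  Units.map (σ : L →* L)

/-- `u ↦ σ u / u`. -/
def subU {K : Type*} [Field K] [Algebra K L] (σ : L ≃ₐ[K] L) : Lˣ →* Lˣ :=
  autU σ / MonoidHom.id Lˣ

/-- `u ↦ ∏ τ, τ u`, the norm as an endomorphism of `Lˣ`. -/
noncomputable def normU : Lˣ →* Lˣ := ∏ τ : L ≃ₐ[K] L, autU τ

variable {K}

@[simp] theorem coe_autU (σ : L ≃ₐ[K] L) (u : Lˣ) : ((autU σ u : Lˣ) : L) = σ (u : L) := rfl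

theorem autU_mul (σ τ : L ≃ₐ[K] L) (u : Lˣ) : autU (σ * τ) u = autU σ (autU τ u) := by
  ext; simp [AlgEquiv.mul_apply]

theorem subU_apply (σ : L ≃ₐ[K] L) (u : Lˣ) : subU σ u = autU σ u / u := rfl

theorem normU_apply (u : Lˣ) : normU K u = ∏ τ : L ≃ₐ[K] L, autU τ u := by
  rw [normU, MonoidHom.finsetProd_apply]

theorem coe_normU (u : Lˣ) : ((normU K u : Lˣ) : L) = ∏ τ : L ≃ₐ[K] L, τ (u : L) := by
  rw [normU_apply, Units.coe_prod]
  rfl

theorem coe_normU_eq [IsGalois K L] (u : Lˣ) :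
    ((normU K u : Lˣ) : L) = algebraMap K L (Algebra.norm K (u : L)) := by
  rw [coe_normU, Algebra.norm_eq_prod_automorphisms]

theorem subU_normU (σ : L ≃ₐ[K] L) (u : Lˣ) : subU σ (normU K u) = 1 := by
  rw [subU_apply, div_eq_one, normU_apply, map_prod]
  refine Fintype.prod_equiv (Equiv.mulLeft σ) _ _ fun τ => ?_
  rw [← autU_mul]; rfl

theorem normU_subU (σ : L ≃ₐ[K] L) (u : Lˣ) : normU K (subU σ u) = 1 := by
  rw [subU_apply, map_div, div_eq_one, normU_apply, normU_apply]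
  refine Fintype.prod_equiv (Equiv.mulRight σ) _ _ fun τ => ?_
  rw [← autU_mul]; rfl

end Maps

section UnitGroup

variable {K L : Type*} [Field K] [NormedField L] [IsUltrametricDist L]
  [Algebra K L] [FiniteDimensional K L] [IsGalois K L]
  {b : Basis (L ≃ₐ[K] L) K L} {π : K} {a : ℕ}

namespace IsNB

variable (h : IsNB b π a)
include h

theorem pow_lt_one {m : ℕ} (hm : 0 < m) : ‖algebraMap K L π‖ ^ m < 1 :=
  pow_lt_one₀ h.pos.le h.lt_one hm.ne'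

theorem mem_lam_of_norm_le' {k m : ℕ} {x : L} (hx : ‖x‖ ≤ ‖algebraMap K L π‖ ^ m)
    (hk : k + a ≤ m) : x ∈ lam b π k :=
  h.mem_lam_of_norm_le (hx.trans (pow_le_pow_of_le_one h.pos.le h.lt_one.le hk))

theorem norm_eq_one_of_sub_one_mem {u : L} {m : ℕ} (hm : 0 < m) (hu : u - 1 ∈ lam b π m) :
    ‖u‖ = 1 :=
  norm_eq_one_of_norm_sub_one_lt ((h.norm_le_of_mem_lam hu).trans_lt (h.pow_lt_one hm))

/-- `V_i = 1 + π^(a+1+i) Λ`, a subgroup of `Lˣ`. -/
def vgrp (i : ℕ) : Subgroup Lˣ where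
  carrier := {u | (u : L) - 1 ∈ lam b π (a + 1 + i)}
  one_mem' := by
    show ((1 : Lˣ) : L) - 1 ∈ lam b π (a + 1 + i)
    rw [Units.val_one, sub_self]
    exact zero_mem _
  mul_mem' := by
    intro u v hu hv
    show ((u * v : Lˣ) : L) - 1 ∈ lam b π (a + 1 + i)
    have e : ((u * v : Lˣ) : L) - 1
        = ((u : L) - 1) + ((v : L) - 1) + ((u : L) - 1) * ((v : L) - 1) := by
      push_cast; ring
    rw [e]
    exact add_mem (add_mem hu hv) (h.mul_mem_lam hu hv (by omega))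
  inv_mem' := by
    intro u hu
    show ((u⁻¹ : Lˣ) : L) - 1 ∈ lam b π (a + 1 + i)
    have hu' : (u : L) - 1 ∈ lam b π (a + 1 + i) := hu
    have hn : ‖(u : L)‖ = 1 := h.norm_eq_one_of_sub_one_mem (by omega) hu'
    have e : ((u⁻¹ : Lˣ) : L) - 1
        = -((u : L) - 1) + ((u : L) - 1) * ((u : L) - 1) * ((u⁻¹ : Lˣ) : L) := by
      have hne : (u : L) ≠ 0 := u.ne_zero
      rw [Units.val_inv_eq_inv_val]
      field_simp
      ring
    rw [e]
    refine add_mem (neg_mem hu') (h.mem_lam_of_norm_le' (m := (a + 1 + i) + (a + 1 + i)) ?_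
      (by omega))
    rw [norm_mul, norm_mul, Units.val_inv_eq_inv_val, norm_inv, hn, inv_one, mul_one, pow_add]
    exact mul_le_mul (h.norm_le_of_mem_lam hu') (h.norm_le_of_mem_lam hu') (norm_nonneg _)
      (pow_nonneg h.pos.le _)

theorem mem_vgrp_iff {i : ℕ} {u : Lˣ} : u ∈ h.vgrp i ↔ (u : L) - 1 ∈ lam b π (a + 1 + i) :=
  Iff.rfl

theorem vgrp_anti {i j : ℕ} (hij : i ≤ j) : h.vgrp j ≤ h.vgrp i := by
  intro u hu
  exact h.lam_anti (by omega) hu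

theorem norm_eq_one_of_mem_vgrp {i : ℕ} {u : Lˣ} (hu : u ∈ h.vgrp i) : ‖(u : L)‖ = 1 :=
  h.norm_eq_one_of_sub_one_mem (by omega) hu

theorem autU_mem_vgrp {i : ℕ} {u : Lˣ} (hu : u ∈ h.vgrp i) (τ : L ≃ₐ[K] L) :
    autU τ u ∈ h.vgrp i := by
  show ((autU τ u : Lˣ) : L) - 1 ∈ lam b π (a + 1 + i)
  have e : ((autU τ u : Lˣ) : L) - 1 = τ ((u : L) - 1) := by
    rw [coe_autU, map_sub, map_one]
  rw [e]
  exact h.aut_mem_lam hu τ

theorem subU_mem_vgrp {i : ℕ} {u : Lˣ} (hu : u ∈ h.vgrp i) (σ : L ≃ₐ[K] L) :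
    subU σ u ∈ h.vgrp i :=
  (h.vgrp i).div_mem (h.autU_mem_vgrp hu σ) hu

theorem normU_mem_vgrp {i : ℕ} {u : Lˣ} (hu : u ∈ h.vgrp i) : normU K u ∈ h.vgrp i := by
  rw [normU_apply]
  exact (h.vgrp i).prod_mem fun τ _ => h.autU_mem_vgrp hu τ

/-- if `v ∈ V_0` and `u - v ∈ π^(a+1+n) Λ` then `u / v ∈ V_n`. -/
theorem div_mem_vgrp {n : ℕ} {u v : Lˣ} (hv : v ∈ h.vgrp 0)
    (huv : (u : L) - v ∈ lam b π (a + 1 + n)) : u / v ∈ h.vgrp n := by
  show ((u / v : Lˣ) : L) - 1 ∈ lam b π (a + 1 + n)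
  have hv' : ((v⁻¹ : Lˣ) : L) - 1 ∈ lam b π (a + 1 + 0) := (h.vgrp 0).inv_mem hv
  have e : ((u / v : Lˣ) : L) - 1
      = ((u : L) - v) + ((u : L) - v) * (((v⁻¹ : Lˣ) : L) - 1) := by
    have hne : (v : L) ≠ 0 := v.ne_zero
    rw [Units.val_div_eq_div_val, Units.val_inv_eq_inv_val]
    field_simp
    ring
  rw [e]
  exact add_mem huv (h.mul_mem_lam huv hv' (by omega))

/-- if `v ∈ V_0` and `u / v ∈ V_n` then `u - v ∈ π^(a+1+n) Λ`. -/
theorem sub_mem_lam_of_div_mem {n : ℕ} {u v : Lˣ} (hv : v ∈ h.vgrp 0)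
    (huv : u / v ∈ h.vgrp n) : (u : L) - v ∈ lam b π (a + 1 + n) := by
  have huv' : ((u / v : Lˣ) : L) - 1 ∈ lam b π (a + 1 + n) := huv
  have hv' : (v : L) - 1 ∈ lam b π (a + 1 + 0) := hv
  have e : (u : L) - v
      = (((u / v : Lˣ) : L) - 1) + (((u / v : Lˣ) : L) - 1) * ((v : L) - 1) := by
    have hne : (v : L) ≠ 0 := v.ne_zero
    rw [Units.val_div_eq_div_val]
    field_simp
    ring
  rw [e]
  exact add_mem huv' (h.mul_mem_lam huv' hv' (by omega))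

/-- first order expansion of the norm on `V_i`. -/
theorem normU_sub_mem_lam {i : ℕ} {u : Lˣ} (hu : u ∈ h.vgrp i) :
    ((normU K u : Lˣ) : L) - 1 - ∑ τ : L ≃ₐ[K] L, τ ((u : L) - 1)
      ∈ lam b π (a + 1 + (i + 1)) := by
  have hu' : (u : L) - 1 ∈ lam b π (a + 1 + i) := hu
  have e : ((normU K u : Lˣ) : L) = ∏ τ : L ≃ₐ[K] L, (1 + τ ((u : L) - 1)) := by
    rw [coe_normU]
    refine prod_congr rfl fun τ _ => ?_
    rw [map_sub, map_one, add_sub_cancel]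
  rw [e]
  have hb := (norm_prod_one_add_sub_le (univ : Finset (L ≃ₐ[K] L))
    (fun τ => τ ((u : L) - 1)) (ε := ‖algebraMap K L π‖ ^ (a + 1 + i))
    (pow_nonneg h.pos.le _) (h.pow_lt_one (by omega)).le
    (fun τ _ => by rw [h.iso]; exact h.norm_le_of_mem_lam hu')).2
  refine h.mem_lam_of_norm_le' (m := (a + 1 + i) * 2) ?_ (by omega)
  rw [pow_mul]
  exact hb

omit h in
theorem sum_univ_eq_sum_range {σ : L ≃ₐ[K] L} (hgen : ∀ τ, τ ∈ Subgroup.zpowers σ)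
    {M : Type*} [AddCommMonoid M] (F : (L ≃ₐ[K] L) → M) :
    ∑ τ, F τ = ∑ j ∈ range (orderOf σ), F (σ ^ j) := by
  classical
  rw [← IsCyclic.image_range_orderOf hgen, sum_image]
  intro i hi j hj hij
  exact pow_injOn_Iio_orderOf (by simpa using hi) (by simpa using hj) hij

/-- (R1) regular representation: `ker (σ - 1) ⊆ im Tr` on `Λ_m / Λ_(m+1)`. -/
theorem exists_trace_approx {σ : L ≃ₐ[K] L} (hgen : ∀ τ, τ ∈ Subgroup.zpowers σ) {m : ℕ}
    {x : L} (hx : x ∈ lam b π m) (hσ : σ x - x ∈ lam b π (m + 1)) :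
    ∃ y ∈ lam b π m, x - ∑ τ : L ≃ₐ[K] L, τ y ∈ lam b π (m + 1) := by
  classical
  let H : Subgroup (L ≃ₐ[K] L) :=
    { carrier := {τ | τ x - x ∈ lam b π (m + 1)}
      one_mem' := by
        show (1 : L ≃ₐ[K] L) x - x ∈ lam b π (m + 1)
        rw [AlgEquiv.one_apply, sub_self]; exact zero_mem _
      mul_mem' := by
        intro τ ρ hτ hρ
        show (τ * ρ) x - x ∈ lam b π (m + 1)
        have e : (τ * ρ) x - x = τ (ρ x - x) + (τ x - x) := by
          rw [AlgEquiv.mul_apply, map_sub]; ring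
        rw [e]; exact add_mem (h.aut_mem_lam hρ τ) hτ
      inv_mem' := by
        intro τ hτ
        show τ⁻¹ x - x ∈ lam b π (m + 1)
        have e : τ⁻¹ x - x = -(τ⁻¹ (τ x - x)) := by
          rw [map_sub, ← AlgEquiv.mul_apply, inv_mul_cancel, AlgEquiv.one_apply]; ring
        rw [e]; exact neg_mem (h.aut_mem_lam hτ τ⁻¹) }
  have hall : ∀ τ : L ≃ₐ[K] L, τ x - x ∈ lam b π (m + 1) := fun τ =>
    (Subgroup.zpowers_le.2 (show σ ∈ H from hσ)) (hgen τ)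
  refine ⟨b.repr x 1 • b 1, h.proj_mem_lam hx, ?_⟩
  intro ρ
  have e : b.repr (x - ∑ τ : L ≃ₐ[K] L, τ (b.repr x 1 • b 1)) ρ = b.repr (ρ⁻¹ x - x) 1 := by
    rw [map_sub, map_sub, Finsupp.sub_apply, Finsupp.sub_apply, h.repr_aut, inv_inv, mul_one]
    congr 1
    rw [map_sum, Finsupp.coe_finsetSum, Finset.sum_apply]
    rw [sum_eq_single ρ]
    · rw [h.repr_aut, inv_mul_cancel, map_smul, Basis.repr_self, Finsupp.smul_apply,
        Finsupp.single_eq_same, smul_eq_mul, mul_one]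
    · intro τ _ hτ
      rw [h.repr_aut, map_smul, Basis.repr_self, Finsupp.smul_apply, Finsupp.single_eq_of_ne,
        smul_zero]
      intro hh
      exact hτ (inv_mul_eq_one.1 hh)
    · intro hρ; exact absurd (mem_univ _) hρ
  rw [e]
  exact hall ρ⁻¹ 1

/-- (R2) regular representation: `ker Tr ⊆ im (σ - 1)` on `Λ_m / Λ_(m+1)`. -/
theorem exists_sub_approx {σ : L ≃ₐ[K] L} (hgen : ∀ τ, τ ∈ Subgroup.zpowers σ) {m : ℕ}
    {x : L} (hx : x ∈ lam b π m) (hN : ∑ τ : L ≃ₐ[K] L, τ x ∈ lam b π (m + 1)) :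
    ∃ y ∈ lam b π m, x - (σ y - y) ∈ lam b π (m + 1) := by
  classical
  set n := orderOf σ with hn
  have hn0 : 0 < n := orderOf_pos σ
  set q : ℕ → L := fun j => b.repr ((σ ^ j)⁻¹ x) 1 • b 1 with hq
  have hqm : ∀ j, q j ∈ lam b π m := fun j => h.proj_mem_lam (h.aut_mem_lam hx _)
  set S : ℕ → L := fun j => ∑ k ∈ range (n - j), (σ ^ (j + k)) (q j) with hS
  have hSm : ∀ j, S j ∈ lam b π m := fun j =>
    sum_mem fun k _ => h.aut_mem_lam (hqm j) _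
  have hSσ : ∀ j, j ≤ n → σ (S j) - S j = q j - (σ ^ j) (q j) := by
    intro j hj
    have e1 : σ (S j) - S j
        = ∑ k ∈ range (n - j), ((σ ^ (j + (k + 1))) (q j) - (σ ^ (j + k)) (q j)) := by
      rw [hS, map_sum, ← sum_sub_distrib]
      refine sum_congr rfl fun k _ => ?_
      rw [← add_assoc, pow_succ', AlgEquiv.mul_apply]
    rw [e1, sum_range_sub (fun k => (σ ^ (j + k)) (q j)), Nat.add_sub_cancel' hj, add_zero, hn,
      pow_orderOf_eq_one, AlgEquiv.one_apply]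
  have hxsum : x = ∑ j ∈ range n, (σ ^ j) (q j) := by
    conv_lhs => rw [← h.sum_aut_proj x]
    rw [sum_univ_eq_sum_range hgen]
  refine ⟨-∑ j ∈ Ico 1 n, S j, neg_mem (sum_mem fun j _ => hSm j), ?_⟩
  have e2 : σ (-∑ j ∈ Ico 1 n, S j) - (-∑ j ∈ Ico 1 n, S j)
      = -∑ j ∈ Ico 1 n, (q j - (σ ^ j) (q j)) := by
    have e : ∑ j ∈ Ico 1 n, σ (S j) - ∑ j ∈ Ico 1 n, S j
        = ∑ j ∈ Ico 1 n, (q j - (σ ^ j) (q j)) := by
      rw [← sum_sub_distrib]
      exact sum_congr rfl fun j hj => hSσ j (mem_Ico.1 hj).2.le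
    rw [map_neg, map_sum, neg_sub_neg, ← neg_sub, e]
  have e3 : x - (σ (-∑ j ∈ Ico 1 n, S j) - (-∑ j ∈ Ico 1 n, S j)) = ∑ j ∈ range n, q j := by
    rw [e2, sub_neg_eq_add, sum_sub_distrib]
    have e4 : x = (σ ^ 0) (q 0) + ∑ j ∈ Ico 1 n, (σ ^ j) (q j) := by
      conv_lhs => rw [hxsum, range_eq_Ico, sum_eq_sum_Ico_succ_bot hn0]
    have e5 : ∑ j ∈ range n, q j = q 0 + ∑ j ∈ Ico 1 n, q j := by
      rw [range_eq_Ico, sum_eq_sum_Ico_succ_bot hn0]
    rw [e5]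
    conv_lhs => rw [e4]
    rw [pow_zero, AlgEquiv.one_apply]
    abel
  rw [e3]
  have e6 : ∑ j ∈ range n, q j = b.repr (∑ τ : L ≃ₐ[K] L, τ x) 1 • b 1 := by
    have e7 : ∑ τ : L ≃ₐ[K] L, τ x = ∑ j ∈ range n, (σ ^ j)⁻¹ x := by
      rw [← sum_univ_eq_sum_range hgen (fun τ => τ⁻¹ x)]
      exact (Fintype.sum_equiv (Equiv.inv (L ≃ₐ[K] L)) _ _ fun τ => rfl)
    rw [e7, map_sum, Finsupp.coe_finsetSum, Finset.sum_apply, sum_smul]
  rw [e6]
  exact h.proj_mem_lam hN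


/-- the unit `1 + y` for `y` in the lattice `π^(a+1+i) Λ`. -/
theorem exists_unit_one_add {i : ℕ} {y : L} (hy : y ∈ lam b π (a + 1 + i)) :
    ∃ w : Lˣ, (w : L) = 1 + y ∧ w ∈ h.vgrp i := by
  have hn : ‖(1 + y : L)‖ = 1 :=
    h.norm_eq_one_of_sub_one_mem (m := a + 1 + i) (by omega) (by rwa [add_sub_cancel_left])
  have hne : (1 + y : L) ≠ 0 := by
    intro h0; rw [h0, norm_zero] at hn; exact zero_ne_one hn
  refine ⟨Units.mk0 (1 + y) hne, rfl, ?_⟩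
  show ((Units.mk0 (1 + y) hne : Lˣ) : L) - 1 ∈ lam b π (a + 1 + i)
  rwa [Units.val_mk0, add_sub_cancel_left]

/-- graded exactness `ker (σ - 1) ⊆ im N` for the unit filtration. -/
theorem graded_sub {σ : L ≃ₐ[K] L} (hgen : ∀ τ, τ ∈ Subgroup.zpowers σ) {i : ℕ} {u : Lˣ}
    (hu : u ∈ h.vgrp i) (hf : subU σ u ∈ h.vgrp (i + 1)) :
    ∃ w ∈ h.vgrp i, u / normU K w ∈ h.vgrp (i + 1) := by
  have hx : (u : L) - 1 ∈ lam b π (a + 1 + i) := hu
  have hu0 : u ∈ h.vgrp 0 := h.vgrp_anti (Nat.zero_le i) hu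
  have h1 : ((autU σ u : Lˣ) : L) - u ∈ lam b π (a + 1 + (i + 1)) :=
    h.sub_mem_lam_of_div_mem hu0 hf
  have hσx : σ ((u : L) - 1) - ((u : L) - 1) ∈ lam b π (a + 1 + i + 1) := by
    have e : σ ((u : L) - 1) - ((u : L) - 1) = ((autU σ u : Lˣ) : L) - u := by
      rw [coe_autU, map_sub, map_one]; ring
    rw [e]; exact h1
  obtain ⟨y, hy, hxy⟩ := h.exists_trace_approx hgen hx hσx
  obtain ⟨w, hw1, hw⟩ := h.exists_unit_one_add hy
  refine ⟨w, hw, ?_⟩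
  have hNw0 : normU K w ∈ h.vgrp 0 := h.vgrp_anti (Nat.zero_le i) (h.normU_mem_vgrp hw)
  refine h.div_mem_vgrp hNw0 ?_
  have h2 := h.normU_sub_mem_lam hw
  have e : (u : L) - (normU K w : Lˣ)
      = ((u : L) - 1 - ∑ τ : L ≃ₐ[K] L, τ y)
        - (((normU K w : Lˣ) : L) - 1 - ∑ τ : L ≃ₐ[K] L, τ ((w : L) - 1)) := by
    rw [hw1, add_sub_cancel_left]; ring
  rw [e]
  exact sub_mem hxy h2

/-- graded exactness `ker N ⊆ im (σ - 1)` for the unit filtration. -/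
theorem graded_norm {σ : L ≃ₐ[K] L} (hgen : ∀ τ, τ ∈ Subgroup.zpowers σ) {i : ℕ} {u : Lˣ}
    (hu : u ∈ h.vgrp i) (hg : normU K u ∈ h.vgrp (i + 1)) :
    ∃ w ∈ h.vgrp i, u / subU σ w ∈ h.vgrp (i + 1) := by
  have hx : (u : L) - 1 ∈ lam b π (a + 1 + i) := hu
  have hg' : ((normU K u : Lˣ) : L) - 1 ∈ lam b π (a + 1 + (i + 1)) := hg
  have hN : ∑ τ : L ≃ₐ[K] L, τ ((u : L) - 1) ∈ lam b π (a + 1 + i + 1) := by
    have h2 := h.normU_sub_mem_lam hu
    have e : ∑ τ : L ≃ₐ[K] L, τ ((u : L) - 1)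
        = (((normU K u : Lˣ) : L) - 1)
          - (((normU K u : Lˣ) : L) - 1 - ∑ τ : L ≃ₐ[K] L, τ ((u : L) - 1)) := by ring
    rw [e]; exact sub_mem hg' h2
  obtain ⟨y, hy, hxy⟩ := h.exists_sub_approx hgen hx hN
  obtain ⟨w, hw1, hw⟩ := h.exists_unit_one_add hy
  refine ⟨w, hw, ?_⟩
  have ht0 : subU σ w ∈ h.vgrp 0 := h.vgrp_anti (Nat.zero_le i) (h.subU_mem_vgrp hw σ)
  refine h.div_mem_vgrp ht0 ?_
  have hwinv : ((w⁻¹ : Lˣ) : L) - 1 ∈ lam b π (a + 1 + i) := (h.vgrp i).inv_mem hw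
  have hσy : σ y - y ∈ lam b π (a + 1 + i) := sub_mem (h.aut_mem_lam hy σ) hy
  have hne : (1 + y : L) ≠ 0 := by rw [← hw1]; exact w.ne_zero
  have e : (u : L) - (subU σ w : Lˣ)
      = ((u : L) - 1 - (σ y - y)) - (σ y - y) * (((w⁻¹ : Lˣ) : L) - 1) := by
    rw [subU_apply, Units.val_div_eq_div_val, coe_autU, Units.val_inv_eq_inv_val, hw1, map_add,
      map_one]
    field_simp
    ring
  rw [e]
  exact sub_mem hxy (h.mul_mem_lam hσy hwinv (by omega))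

theorem eq_one_of_forall_mem_vgrp {u : Lˣ} (hu : ∀ n, u ∈ h.vgrp n) : u = 1 := by
  by_contra hne
  have hpos : 0 < ‖(u : L) - 1‖ := by
    rw [norm_pos_iff, sub_ne_zero]
    intro h1
    exact hne (Units.ext h1)
  obtain ⟨n, hn⟩ := exists_pow_lt_of_lt_one hpos h.lt_one
  have h1 : ‖(u : L) - 1‖ ≤ ‖algebraMap K L π‖ ^ (a + 1 + n) := h.norm_le_of_mem_lam (hu n)
  have h2 : ‖algebraMap K L π‖ ^ (a + 1 + n) ≤ ‖algebraMap K L π‖ ^ n :=
    pow_le_pow_of_le_one h.pos.le h.lt_one.le (by omega)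
  linarith

/-- completeness of the unit filtration. -/
theorem exists_prod_limit [CompleteSpace L] (y : ℕ → Lˣ) (hy : ∀ n, y n ∈ h.vgrp n) :
    ∃ P : Lˣ, ∀ n, P / ∏ i ∈ range n, y i ∈ h.vgrp n := by
  set r := ‖algebraMap K L π‖ with hr
  set Pn : ℕ → Lˣ := fun n => ∏ i ∈ range n, y i with hPn
  have hP0 : ∀ n, Pn n ∈ h.vgrp 0 := fun n =>
    (h.vgrp 0).prod_mem fun i _ => h.vgrp_anti (Nat.zero_le i) (hy i)
  have hstep : ∀ n, ((Pn (n + 1) : Lˣ) : L) - Pn n ∈ lam b π (a + 1 + n) := by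
    intro n
    have e : ((Pn (n + 1) : Lˣ) : L) - Pn n
        = ((y n : L) - 1) + ((Pn n : L) - 1) * ((y n : L) - 1) := by
      rw [hPn]; simp only [prod_range_succ, Units.val_mul]; ring
    rw [e]
    exact add_mem (hy n) (h.mul_mem_lam (hP0 n) (hy n) (by omega))
  have hdiff : ∀ n k, ((Pn (n + k) : Lˣ) : L) - Pn n ∈ lam b π (a + 1 + n) := by
    intro n k
    induction k with
    | zero => rw [add_zero, sub_self]; exact zero_mem _
    | succ k ih =>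
      have e : ((Pn (n + (k + 1)) : Lˣ) : L) - Pn n
          = (((Pn (n + k + 1) : Lˣ) : L) - Pn (n + k)) + (((Pn (n + k) : Lˣ) : L) - Pn n) := by
        rw [← add_assoc]; ring
      rw [e]
      exact add_mem (h.lam_anti (by omega) (hstep (n + k))) ih
  have hcau : CauchySeq fun n => ((Pn n : Lˣ) : L) := by
    refine cauchySeq_of_le_geometric r (r ^ (a + 1)) h.lt_one fun n => ?_
    rw [dist_comm, dist_eq_norm, ← pow_add]
    exact h.norm_le_of_mem_lam (hstep n)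
  obtain ⟨p, hp⟩ := cauchySeq_tendsto_of_complete hcau
  have hlim : ∀ n, ‖p - (Pn n : L)‖ ≤ r ^ (a + 1 + n) := by
    intro n
    refine le_of_tendsto ((hp.sub_const _).norm) ?_
    rw [Filter.eventually_atTop]
    refine ⟨n, fun m hm => ?_⟩
    obtain ⟨k, rfl⟩ := Nat.exists_eq_add_of_le hm
    exact h.norm_le_of_mem_lam (hdiff n k)
  have hp1 : ‖p‖ = 1 := by
    refine norm_eq_one_of_norm_sub_one_lt ?_
    have h0 := hlim 0
    have e : ((Pn 0 : Lˣ) : L) = 1 := by rw [hPn]; simp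
    rw [e] at h0
    exact h0.trans_lt (h.pow_lt_one (by omega))
  have hp0 : p ≠ 0 := by
    intro h0; rw [h0, norm_zero] at hp1; exact zero_ne_one hp1
  refine ⟨Units.mk0 p hp0, fun n => h.div_mem_vgrp (hP0 n) ?_⟩
  have e : ((Units.mk0 p hp0 : Lˣ) : L) - Pn n
      = (p - (Pn (n + a) : L)) + (((Pn (n + a) : Lˣ) : L) - Pn n) := by
    rw [Units.val_mk0]; ring
  rw [e]
  exact add_mem (h.mem_lam_of_norm_le' (hlim (n + a)) (by omega)) (hdiff n a)

/-- **(T1)** `ker (σ - 1) ∩ V ⊆ N(V)`. -/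
theorem exists_normU_eq [CompleteSpace L] {σ : L ≃ₐ[K] L} (hgen : ∀ τ, τ ∈ Subgroup.zpowers σ)
    {u : Lˣ} (hu : u ∈ h.vgrp 0) (hσ : subU σ u = 1) : ∃ w ∈ h.vgrp 0, normU K w = u :=
  exists_eq_of_graded h.vgrp (subU σ) (normU K) (fun v => subU_normU σ v)
    (fun _ _ hv => h.normU_mem_vgrp hv) (fun _ hv => h.eq_one_of_forall_mem_vgrp hv)
    (fun y hy => h.exists_prod_limit y hy) (fun _ _ hv hf => h.graded_sub hgen hv hf) u hu hσ

/-- **(T2)** `ker N ∩ V ⊆ (σ - 1) V`. -/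
theorem exists_subU_eq [CompleteSpace L] {σ : L ≃ₐ[K] L} (hgen : ∀ τ, τ ∈ Subgroup.zpowers σ)
    {u : Lˣ} (hu : u ∈ h.vgrp 0) (hN : normU K u = 1) : ∃ w ∈ h.vgrp 0, subU σ w = u :=
  exists_eq_of_graded h.vgrp (normU K) (subU σ) (fun v => normU_subU σ v)
    (fun _ _ hv => h.subU_mem_vgrp hv σ) (fun _ hv => h.eq_one_of_forall_mem_vgrp hv)
    (fun y hy => h.exists_prod_limit y hy) (fun _ _ hv hf => h.graded_norm hgen hv hf) u hu hN

end IsNB

end UnitGroup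

end Fermat.Agent.S55.H18
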