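/-
S55 (Poitou–Tate), package C3 (local fields), leaf L4 (helper18).

**The local norm index for cyclic extensions.**  `L/K` a finite cyclic Galois extension, `L` a
complete ultrametric normed field with discrete value group and totally bounded unit ball, the
Galois group acting by isometries.  Then `(Kˣ : N Lˣ) = [L : K]`.

Proof: Herbrand quotient.  `V = 1 + π^(a+1) Λ` (normal-basis lattice) is cohomologically trivial
(`UnitGroup.lean`) and of finite index in the group `U` of units of norm one, so `h(U) = 1`;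
`Lˣ / U ≅ ℤ` with trivial action contributes `[L : K]`; Hilbert 90 gives `ker N = im (σ - 1)`.
-/
import Mathlib
import Fermat.Agent.S55.H18.UnitGroup
import Fermat.Agent.S55.H18.HerbrandSub

set_option autoImplicit false
set_option linter.unusedSectionVars false

namespace Fermat.Agent.S55.H18

open Finset Module Fermat.Agent.S55.H84

section UnitNorm

variable (L : Type*) [NormedField L]

/-- the units of norm one. -/
def unitNorm : Subgroup Lˣ where
  carrier := {u | ‖(u : L)‖ = 1}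
  one_mem' := by simp
  mul_mem' := by
    intro u v hu hv
    show ‖((u * v : Lˣ) : L)‖ = 1
    rw [Units.val_mul, norm_mul, hu, hv, mul_one]
  inv_mem' := by
    intro u hu
    show ‖((u⁻¹ : Lˣ) : L)‖ = 1
    rw [Units.val_inv_eq_inv_val, norm_inv, hu, inv_one]

variable {L}

theorem mem_unitNorm_iff {u : Lˣ} : u ∈ unitNorm L ↔ ‖(u : L)‖ = 1 := Iff.rfl

end UnitNorm

section Valuation

variable {L : Type*} [NormedField L]

/-- the valuation `Lˣ → ℤ` attached to a generator `‖ϖ‖` of the value group. -/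
theorem exists_valuation {ϖ : L} (hϖ0 : ϖ ≠ 0) (hϖ1 : ‖ϖ‖ < 1)
    (hval : ∀ x : L, x ≠ 0 → ∃ n : ℤ, ‖x‖ = ‖ϖ‖ ^ n) :
    ∃ v : Additive Lˣ →+ ℤ, Function.Surjective v ∧
      ∀ u : Lˣ, ‖(u : L)‖ = ‖ϖ‖ ^ v (Additive.ofMul u) := by
  have ht0 : 0 < ‖ϖ‖ := norm_pos_iff.2 hϖ0
  have hinj : Function.Injective fun n : ℤ => ‖ϖ‖ ^ n := zpow_right_injective₀ ht0 hϖ1.ne
  choose! vf hvf using hval
  have hadd : ∀ u w : Lˣ, vf ((u * w : Lˣ) : L) = vf (u : L) + vf (w : L) := by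
    intro u w
    apply hinj
    show ‖ϖ‖ ^ vf ((u * w : Lˣ) : L) = ‖ϖ‖ ^ (vf (u : L) + vf (w : L))
    rw [← hvf _ (u * w).ne_zero, zpow_add₀ ht0.ne', ← hvf _ u.ne_zero, ← hvf _ w.ne_zero,
      Units.val_mul, norm_mul]
  refine ⟨AddMonoidHom.mk' (fun x => vf ((Additive.toMul x : Lˣ) : L)) (fun x y => hadd _ _),
    ?_, fun u => hvf _ u.ne_zero⟩
  intro k
  refine ⟨Additive.ofMul ((Units.mk0 ϖ hϖ0) ^ k), ?_⟩
  apply hinj
  show ‖ϖ‖ ^ vf (((Units.mk0 ϖ hϖ0) ^ k : Lˣ) : L) = ‖ϖ‖ ^ k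
  rw [← hvf _ (Units.ne_zero _), Units.val_zpow_eq_zpow_val, Units.val_mk0, norm_zpow]

end Valuation

section Main

variable {K L : Type*} [Field K] [NormedField L] [IsUltrametricDist L]
  [Algebra K L] [FiniteDimensional K L] [IsGalois K L]

theorem norm_subU (hiso : ∀ (σ : L ≃ₐ[K] L) (x : L), ‖σ x‖ = ‖x‖) (σ : L ≃ₐ[K] L) (u : Lˣ) :
    ‖((subU σ u : Lˣ) : L)‖ = 1 := by
  rw [subU_apply, Units.val_div_eq_div_val, coe_autU, norm_div, hiso,
    div_self (norm_ne_zero_iff.2 u.ne_zero)]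

theorem norm_normU (hiso : ∀ (σ : L ≃ₐ[K] L) (x : L), ‖σ x‖ = ‖x‖) (u : Lˣ) :
    ‖((normU K u : Lˣ) : L)‖ = ‖(u : L)‖ ^ Module.finrank K L := by
  rw [coe_normU_eq, norm_algebraMap_norm hiso]

/-- the index of `Lˣ ⧸ U ≅ ℤ` for `(σ - 1, N)` is `[L : K]`. -/
theorem hIdxQuot_sub_norm (hiso : ∀ (σ : L ≃ₐ[K] L) (x : L), ‖σ x‖ = ‖x‖) (σ : L ≃ₐ[K] L)
    {ϖ : L} (hϖ0 : ϖ ≠ 0) (hϖ1 : ‖ϖ‖ < 1) (hval : ∀ x : L, x ≠ 0 → ∃ n : ℤ, ‖x‖ = ‖ϖ‖ ^ n) :
    hIdxQuot (unitNorm L).toAddSubgroup (MonoidHom.toAdditive (subU σ))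
      (MonoidHom.toAdditive (normU K)) = Module.finrank K L := by
  obtain ⟨v, hvs, hv⟩ := exists_valuation hϖ0 hϖ1 hval
  have ht0 : 0 < ‖ϖ‖ := norm_pos_iff.2 hϖ0
  have hinj : Function.Injective fun n : ℤ => ‖ϖ‖ ^ n := zpow_right_injective₀ ht0 hϖ1.ne
  set n := Module.finrank K L with hn
  -- `v` on norms
  have hvN : ∀ y : Additive Lˣ, v (MonoidHom.toAdditive (normU K) y) = v y * n := by
    intro y
    apply hinj
    show ‖ϖ‖ ^ v (Additive.ofMul (normU K (Additive.toMul y))) = ‖ϖ‖ ^ (v y * n)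
    rw [← hv, norm_normU hiso, zpow_mul, zpow_natCast]
    congr 1
    exact hv (Additive.toMul y)
  have hvU : ∀ z : Additive Lˣ, z ∈ (unitNorm L).toAddSubgroup ↔ v z = 0 := by
    intro z
    have hz : ‖((Additive.toMul z : Lˣ) : L)‖ = ‖ϖ‖ ^ v z := hv (Additive.toMul z)
    constructor
    · intro h1
      apply hinj
      show ‖ϖ‖ ^ v z = ‖ϖ‖ ^ (0 : ℤ)
      rw [← hz, zpow_zero]
      exact h1
    · intro h0
      show ‖((Additive.toMul z : Lˣ) : L)‖ = 1
      rw [hz, h0, zpow_zero]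
  unfold hIdxQuot
  have e1 : (unitNorm L).toAddSubgroup.comap (MonoidHom.toAdditive (subU σ)) = ⊤ := by
    rw [eq_top_iff]
    intro x _
    exact norm_subU hiso σ _
  rw [e1, AddSubgroup.relIndex_top_right]
  have e2 : (MonoidHom.toAdditive (normU K)).range ⊔ (unitNorm L).toAddSubgroup
      = (AddSubgroup.zmultiples (n : ℤ)).comap v := by
    ext x
    rw [AddSubgroup.mem_comap, AddSubgroup.mem_zmultiples_iff]
    constructor
    · intro hx
      obtain ⟨_, ⟨y, rfl⟩, z, hz, rfl⟩ := AddSubgroup.mem_sup.1 hx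
      refine ⟨v y, ?_⟩
      rw [map_add, hvN, (hvU z).1 hz, add_zero, smul_eq_mul]
    · rintro ⟨k, hk⟩
      obtain ⟨y, rfl⟩ := hvs k
      have e : x = MonoidHom.toAdditive (normU K) y + (x - MonoidHom.toAdditive (normU K) y) := by
        abel
      rw [e]
      refine AddSubgroup.add_mem_sup ⟨y, rfl⟩ ((hvU _).2 ?_)
      rw [map_sub, hvN, ← hk, smul_eq_mul, sub_self]
  rw [e2, AddSubgroup.index_comap_of_surjective _ hvs, Int.index_zmultiples, Int.natAbs_natCast]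

/-- the index of `Lˣ ⧸ U` for `(N, σ - 1)` is `1`. -/
theorem hIdxQuot_norm_sub (hiso : ∀ (σ : L ≃ₐ[K] L) (x : L), ‖σ x‖ = ‖x‖) (σ : L ≃ₐ[K] L) :
    hIdxQuot (unitNorm L).toAddSubgroup (MonoidHom.toAdditive (normU K))
      (MonoidHom.toAdditive (subU σ)) = 1 := by
  unfold hIdxQuot
  rw [AddSubgroup.relIndex_eq_one]
  intro x hx
  refine AddSubgroup.mem_sup_right ?_
  have h1 : ‖((normU K (Additive.toMul x) : Lˣ) : L)‖ = 1 := hx
  rw [norm_normU hiso] at h1
  exact (pow_eq_one_iff_of_nonneg (norm_nonneg _) (Module.finrank_pos (R := K) (M := L)).ne').1 h1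

/-- `V = 1 + π^(a+1) Λ` has finite index in the units of norm one. -/
theorem relIndex_vgrp_ne_zero {b : Basis (L ≃ₐ[K] L) K L} {π : K} {a : ℕ} (h : IsNB b π a)
    (htb : ∀ ε : ℝ, 0 < ε → ∃ s : Finset L, ∀ x : L, ‖x‖ ≤ 1 → ∃ y ∈ s, ‖x - y‖ ≤ ε) :
    (h.vgrp 0).relIndex (unitNorm L) ≠ 0 := by
  classical
  set ρ := ‖algebraMap K L π‖ ^ (a + 1 + 0 + a) with hρ
  obtain ⟨s, hs⟩ := htb ρ (pow_pos h.pos _)
  have hφ : ∀ u : unitNorm L, ∃ y ∈ s, ‖((u : Lˣ) : L) - y‖ ≤ ρ := fun u => hs _ (le_of_eq u.2)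
  choose φ hφs hφ' using hφ
  have hfin : Finite ((unitNorm L) ⧸ (h.vgrp 0).subgroupOf (unitNorm L)) := by
    refine Finite.of_injective
      (fun c : (unitNorm L) ⧸ (h.vgrp 0).subgroupOf (unitNorm L) =>
        (⟨φ (Quotient.out c), hφs _⟩ : s)) ?_
    intro c c' hcc
    have h1 : φ (Quotient.out c) = φ (Quotient.out c') := congrArg Subtype.val hcc
    rw [← QuotientGroup.out_eq' c, ← QuotientGroup.out_eq' c']
    rw [QuotientGroup.eq]
    set u := Quotient.out c with hu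
    set u' := Quotient.out c' with hu'
    show ((u⁻¹ * u' : unitNorm L) : Lˣ) ∈ h.vgrp 0
    have hun : ‖((u : Lˣ) : L)‖ = 1 := u.2
    have hne : ((u : Lˣ) : L) ≠ 0 := (u : Lˣ).ne_zero
    have e : (((u⁻¹ * u' : unitNorm L) : Lˣ) : L) - 1
        = (((u' : Lˣ) : L) - ((u : Lˣ) : L)) * (((u : Lˣ) : L))⁻¹ := by
      push_cast
      field_simp
    refine h.mem_lam_of_norm_le ?_
    rw [e, norm_mul, norm_inv, hun, inv_one, mul_one]
    have e' : ((u' : Lˣ) : L) - ((u : Lˣ) : L)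
        = (((u' : Lˣ) : L) - φ u') - (((u : Lˣ) : L) - φ u) := by
      rw [h1]; ring
    rw [e', sub_eq_add_neg]
    refine (IsUltrametricDist.norm_add_le_max _ _).trans (max_le (hφ' u') ?_)
    rw [norm_neg]
    exact hφ' u
  rw [Subgroup.relIndex]
  exact Subgroup.index_ne_zero_of_finite

end Main

section Final

/- Mathlib's cyclic Hilbert 90 is stated for fields in `Type`; so is the final theorem. -/
variable {K L : Type} [Field K] [NormedField L] [IsUltrametricDist L]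
  [Algebra K L] [FiniteDimensional K L] [IsGalois K L]

/-- cyclic Hilbert 90 in the form `ker N ⊆ im (σ - 1)`. -/
theorem exists_subU_eq_of_normU_eq_one {σ : L ≃ₐ[K] L} (hgen : ∀ τ, τ ∈ Subgroup.zpowers σ)
    {x : Lˣ} (hx : normU K x = 1) : ∃ y : Lˣ, subU σ y = x := by
  have : IsCyclic (L ≃ₐ[K] L) := ⟨σ, hgen⟩
  have h1 : Algebra.norm K (x : L) = 1 := by
    apply FaithfulSMul.algebraMap_injective K L
    rw [← coe_normU_eq, hx, Units.val_one, map_one]
  obtain ⟨y, hy⟩ := groupCohomology.exists_div_of_norm_eq_one hgen h1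
  refine ⟨y⁻¹, Units.ext ?_⟩
  rw [subU_apply, Units.val_div_eq_div_val, coe_autU, Units.val_inv_eq_inv_val, map_inv₀,
    inv_div_inv]
  exact hy

/-- `[ker (σ - 1) : im N] = [L : K]` on `Lˣ`, for a generator `σ` of the Galois group. -/
theorem relIndex_range_normU [CompleteSpace L]
    (hiso : ∀ (σ : L ≃ₐ[K] L) (x : L), ‖σ x‖ = ‖x‖) {σ : L ≃ₐ[K] L}
    (hgen : ∀ τ, τ ∈ Subgroup.zpowers σ) {ϖ : L} (hϖ0 : ϖ ≠ 0) (hϖ1 : ‖ϖ‖ < 1)
    (hval : ∀ x : L, x ≠ 0 → ∃ n : ℤ, ‖x‖ = ‖ϖ‖ ^ n)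
    (htb : ∀ ε : ℝ, 0 < ε → ∃ s : Finset L, ∀ x : L, ‖x‖ ≤ 1 → ∃ y ∈ s, ‖x - y‖ ≤ ε) :
    (normU K : Lˣ →* Lˣ).range.relIndex (subU σ).ker = Module.finrank K L := by
  obtain ⟨b, π, a, h⟩ := exists_isNB hiso ⟨ϖ, hϖ0, hϖ1⟩
  have key := hIdx_eq_of_quot (f := MonoidHom.toAdditive (subU σ))
    (g := MonoidHom.toAdditive (normU K)) (unitNorm L).toAddSubgroup (h.vgrp 0).toAddSubgroup
    (fun x hx => h.norm_eq_one_of_mem_vgrp hx)
    (fun x => congrArg Additive.ofMul (subU_normU σ (Additive.toMul x)))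
    (fun x => congrArg Additive.ofMul (normU_subU σ (Additive.toMul x)))
    (fun x _ => norm_subU hiso σ _)
    (fun x hx => by
      show ‖((normU K (Additive.toMul x) : Lˣ) : L)‖ = 1
      have hx' : ‖((Additive.toMul x : Lˣ) : L)‖ = 1 := hx
      rw [norm_normU hiso, hx', one_pow])
    (fun x hx => h.subU_mem_vgrp hx σ)
    (fun x hx => h.normU_mem_vgrp hx)
    (fun v hv hv0 => by
      obtain ⟨w, hw, hwv⟩ := h.exists_normU_eq hgen hv (congrArg Additive.toMul hv0)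
      exact ⟨Additive.ofMul w, hw, congrArg Additive.ofMul hwv⟩)
    (fun v hv hv0 => by
      obtain ⟨w, hw, hwv⟩ := h.exists_subU_eq hgen hv (congrArg Additive.toMul hv0)
      exact ⟨Additive.ofMul w, hw, congrArg Additive.ofMul hwv⟩)
    (by rw [Subgroup.relIndex_toAddSubgroup]; exact relIndex_vgrp_ne_zero h htb)
    (hIdxQuot_sub_norm hiso σ hϖ0 hϖ1 hval) (hIdxQuot_norm_sub hiso σ)
    (fun x hx => by
      obtain ⟨y, hy⟩ := exists_subU_eq_of_normU_eq_one hgen (congrArg Additive.toMul hx)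
      exact ⟨Additive.ofMul y, congrArg Additive.ofMul hy⟩)
  unfold hIdx at key
  rw [MonoidHom.coe_toAdditive_range, MonoidHom.coe_toAdditive_ker,
    Subgroup.relIndex_toAddSubgroup] at key
  exact key

/-- **Local norm index theorem for cyclic extensions**: `(Kˣ : N_{L/K} Lˣ) = [L : K]`. -/
theorem norm_index_of_cyclic [CompleteSpace L] (hcyc : IsCyclic (L ≃ₐ[K] L))
    (hiso : ∀ (σ : L ≃ₐ[K] L) (x : L), ‖σ x‖ = ‖x‖)
    (hdisc : ∃ ϖ : L, ϖ ≠ 0 ∧ ‖ϖ‖ < 1 ∧ ∀ x : L, x ≠ 0 → ∃ n : ℤ, ‖x‖ = ‖ϖ‖ ^ n)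
    (htb : ∀ ε : ℝ, 0 < ε → ∃ s : Finset L, ∀ x : L, ‖x‖ ≤ 1 → ∃ y ∈ s, ‖x - y‖ ≤ ε) :
    (Units.map (Algebra.norm K : L →* K)).range.index = Module.finrank K L := by
  obtain ⟨σ, hgen⟩ := hcyc.exists_generator
  obtain ⟨ϖ, hϖ0, hϖ1, hval⟩ := hdisc
  have key := relIndex_range_normU hiso hgen hϖ0 hϖ1 hval htb
  set j : Kˣ →* Lˣ := Units.map (algebraMap K L : K →* L) with hj
  have hjinj : Function.Injective j := by
    intro x y hxy
    apply Units.ext
    apply FaithfulSMul.algebraMap_injective K L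
    exact congrArg Units.val hxy
  have e1 : (Units.map (Algebra.norm K : L →* K)).range.map j = (normU K : Lˣ →* Lˣ).range := by
    ext x
    constructor
    · rintro ⟨_, ⟨y, rfl⟩, rfl⟩
      refine ⟨y, Units.ext ?_⟩
      rw [coe_normU_eq]; rfl
    · rintro ⟨y, rfl⟩
      refine ⟨Units.map (Algebra.norm K : L →* K) y, ⟨y, rfl⟩, Units.ext ?_⟩
      rw [coe_normU_eq]; rfl
  have e2 : (⊤ : Subgroup Kˣ).map j = (subU σ).ker := by
    ext x
    constructor
    · rintro ⟨c, -, rfl⟩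
      rw [MonoidHom.mem_ker, subU_apply, div_eq_one]
      apply Units.ext
      show σ (algebraMap K L (c : K)) = algebraMap K L (c : K)
      exact σ.commutes _
    · intro hx
      rw [MonoidHom.mem_ker, subU_apply, div_eq_one] at hx
      have hσx : σ (x : L) = x := congrArg Units.val hx
      have hall : ∀ τ : L ≃ₐ[K] L, τ (x : L) = x := by
        intro τ
        have hmem : τ ∈ Subgroup.zpowers σ := hgen τ
        let H : Subgroup (L ≃ₐ[K] L) :=
          { carrier := {ρ | ρ (x : L) = x}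
            one_mem' := rfl
            mul_mem' := by
              intro ρ ρ' hρ hρ'
              show (ρ * ρ') (x : L) = x
              rw [AlgEquiv.mul_apply, hρ', hρ]
            inv_mem' := by
              intro ρ hρ
              show ρ⁻¹ (x : L) = x
              conv_lhs => rw [← hρ]
              rw [← AlgEquiv.mul_apply, inv_mul_cancel, AlgEquiv.one_apply] }
        exact (Subgroup.zpowers_le.2 (show σ ∈ H from hσx)) hmem
      obtain ⟨c, hc⟩ := (IsGalois.mem_range_algebraMap_iff_fixed (F := K) (x : L)).2 hall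
      have hc0 : c ≠ 0 := by
        intro h0
        rw [h0, map_zero] at hc
        exact x.ne_zero hc.symm
      exact ⟨Units.mk0 c hc0, Subgroup.mem_top _, Units.ext hc⟩
  rw [← Subgroup.relIndex_top_right, ← Subgroup.relIndex_map_map_of_injective _ _ hjinj, e1, e2]
  exact key

omit [IsUltrametricDist L] in
/-- total boundedness of the unit ball of a proper normed field, in the form used above. -/
theorem exists_finset_approx_of_proper [ProperSpace L] (ε : ℝ) (hε : 0 < ε) :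
    ∃ s : Finset L, ∀ x : L, ‖x‖ ≤ 1 → ∃ y ∈ s, ‖x - y‖ ≤ ε := by
  obtain ⟨t, -, htfin, hcov⟩ := (isCompact_closedBall (0 : L) 1).finite_cover_balls hε
  refine ⟨htfin.toFinset, fun x hx => ?_⟩
  have hx' : x ∈ Metric.closedBall (0 : L) 1 := by
    rw [Metric.mem_closedBall, dist_zero_right]; exact hx
  obtain ⟨y, hy, hxy⟩ := Set.mem_iUnion₂.1 (hcov hx')
  refine ⟨y, htfin.mem_toFinset.2 hy, ?_⟩
  rw [← dist_eq_norm]
  exact (Metric.mem_ball.1 hxy).le

/-- **Local norm index theorem for cyclic extensions**, locally compact form. -/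
theorem norm_index_of_cyclic_of_proper [ProperSpace L] (hcyc : IsCyclic (L ≃ₐ[K] L))
    (hiso : ∀ (σ : L ≃ₐ[K] L) (x : L), ‖σ x‖ = ‖x‖)
    (hdisc : ∃ ϖ : L, ϖ ≠ 0 ∧ ‖ϖ‖ < 1 ∧ ∀ x : L, x ≠ 0 → ∃ n : ℤ, ‖x‖ = ‖ϖ‖ ^ n) :
    (Units.map (Algebra.norm K : L →* K)).range.index = Module.finrank K L :=
  norm_index_of_cyclic hcyc hiso hdisc exists_finset_approx_of_proper

end Final

end Fermat.Agent.S55.H18
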