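/-
Program C (S55), package C8, leaf (CYCREC), helper6's spec `H6/RecCycloSpec.lean`:
the two leaves (R-LOCNORM) and (R-UNR), VERBATIM, as corollaries of `H18/CycLocal.lean`
(`exists_norm_of_linvAt_eq_zero`, `linvAt_cycClass_of_unram`).
-/
import Fermat.Agent.S55.H18.CycLocal
import Fermat.Agent.S55.H6.RecCycloSpec

set_option autoImplicit false

noncomputable section

namespace Fermat.Agent.S55.H18

open CategoryTheory groupCohomology
open Fermat.Agent.S55.H66 Fermat.Agent.S55.H88 Fermat.Agent.S55.H29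

/-- **(R-LOCNORM)**, verbatim. -/
theorem locNormStatement : Fermat.Agent.S55.H6.LocNormStatement := by
  intro k E _ _ _ _ _ _ σ hσ q _ τ' a h
  obtain ⟨y, hy⟩ := exists_norm_of_linvAt_eq_zero k τ' σ hσ a h
  exact ⟨(y : locExt q k τ'), hy⟩

/-- **(R-UNR)**, verbatim. -/
theorem unrFormulaStatement : Fermat.Agent.S55.H6.UnrFormulaStatement := by
  intro k E _ _ _ _ _ _ σ hσ q _ τ' hunr φ hφ i hi a
  have h := linvAt_cycClass_of_unram k τ' σ hσ a hunr φ hφ
  rw [h, hi, chi_pow σ (orderOf_pos σ) i, ← AddCircle.coe_zsmul]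
  congr 1
  have h1 : ((locUnit k τ' a : (locBase q k τ')ˣ) : locBase q k τ')
      = locEmb q (τ'.comp (algebraMap k E)) (a : k) := rfl
  rw [h1, zsmul_eq_mul]
  push_cast
  ring

end Fermat.Agent.S55.H18
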